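import Mathlib
import Fermat.Prelude.Def_CuspForm_HeckeAlgebra

/-!
# Lib/Petersson: definitions (architect: helper33)

Integration over `Γ \ ℍ` WITHOUT fundamental domains of subgroups: a *weight* for a countable
group `Δ` acting on a measure space is a nonnegative integrable function `w` with
`∑_{δ ∈ Δ} w (δ x) = 1` for almost every `x`.  Then `∫ w • φ` does not depend on `w` when `φ` is
`Δ`-invariant ("unfolding"), and the normalised `mean` is invariant under commensurators.
For `SL(2, ℤ)` the function `(1/2) 1_𝒟` is a weight (the factor 2 takes care of `-1`).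
-/

namespace Fermat.Agent.Pet

open MeasureTheory

section general

variable {G X : Type*} [Group G] [MulAction G X] [MeasurableSpace X]

/-- `w` is a weight for the subgroup `Δ` acting on `(X, μ)`. -/
structure IsWeight (μ : Measure X) (Δ : Subgroup G) (w : X → ℝ) : Prop where
  measurable : Measurable w
  nonneg : ∀ x, 0 ≤ w x
  integrable : Integrable w μ
  hasSum : ∀ᵐ x ∂μ, HasSum (fun δ : Δ => w ((δ : G) • x)) 1

/-- The normalised mean of `φ` with respect to the weight `w`. -/
noncomputable def mean (μ : Measure X) (w : X → ℝ) {E : Type*} [NormedAddCommGroup E]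
    [NormedSpace ℝ E] (φ : X → E) : E :=
  (∫ x, w x ∂μ)⁻¹ • ∫ x, w x • φ x ∂μ

end general

open scoped MatrixGroups

/-- The image of `SL(2, ℤ)` in `GL(2, ℝ)`. -/
def SLZ : Subgroup (GL (Fin 2) ℝ) :=
  (Matrix.SpecialLinearGroup.mapGL ℝ : SL(2, ℤ) →* GL (Fin 2) ℝ).range

/-- The image of `Γ(m)` in `GL(2, ℝ)`. -/
def GammaGL (m : ℕ) : Subgroup (GL (Fin 2) ℝ) :=
  (CongruenceSubgroup.Gamma m).map (Matrix.SpecialLinearGroup.mapGL ℝ)

end Fermat.Agent.Pet
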