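import Mathlib
import Fermat.Agent.Lib.Petersson.Defs

/-!
# Lib/Petersson/FdBasic: the standard fundamental domain gives a weight for `SL(2, ℤ)`
(owner: helper54)

`volume` on `ℍ` is `(volume.comap coe).withDensity (1 / y^2)` (`UpperHalfPlane.volume_def`,
`UpperHalfPlane.volume_eq_lintegral`).  `𝒟 ⊆ {|x| ≤ 1/2, 1/2 ≤ y}`,
`𝒟 \ 𝒟ᵒ ⊆ {|z| = 1} ∪ {|x| = 1/2}` (null sets).
For almost every `τ` (those whose orbit misses `𝒟 \ 𝒟ᵒ`) there are exactly two `γ` with
`γ • τ ∈ 𝒟`, and they have different images in `GL(2, ℝ)`.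
-/

namespace Fermat.Agent.Pet

open MeasureTheory UpperHalfPlane ModularGroup

open scoped MatrixGroups Modular

/-- `SL(2, ℤ)` is countable. -/
theorem countable_SL2Z : Countable SL(2, ℤ) := by
  have : Countable (Matrix (Fin 2) (Fin 2) ℤ) :=
    inferInstanceAs (Countable (Fin 2 → Fin 2 → ℤ))
  exact Subtype.countable (p := fun A : Matrix (Fin 2) (Fin 2) ℤ => A.det = 1)

/-- the hyperbolic measure charges every nonempty open set. -/
theorem isOpenPosMeasure_upperHalfPlane : (volume : Measure ℍ).IsOpenPosMeasure := by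
  refine ⟨fun U hU hne => ?_⟩
  rw [volume_eq_lintegral]
  have hopen : IsOpen ((↑) '' U : Set ℂ) := UpperHalfPlane.isOpenEmbedding_coe.isOpenMap U hU
  have hpos : 0 < volume ((↑) '' U : Set ℂ) := hopen.measure_pos volume (hne.image _)
  have hmeas : Measurable (fun z : ℂ => ((((1 / ‖z.im‖₊) ^ 2 : NNReal)) : ENNReal)) := by
    fun_prop
  rw [← pos_iff_ne_zero, lintegral_pos_iff_support hmeas,
    Measure.restrict_apply (measurableSet_support hmeas)]
  refine lt_of_lt_of_le hpos (measure_mono ?_)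
  rintro z ⟨τ, hτ, rfl⟩
  refine ⟨?_, τ, hτ, rfl⟩
  simp only [Function.mem_support, ne_eq, ENNReal.coe_eq_zero]
  simpa using τ.im_ne_zero

theorem fd_im_ge_half {τ : ℍ} (h : τ ∈ 𝒟) : (1 / 2 : ℝ) ≤ τ.im := by
  have h3 := three_le_four_mul_im_sq_of_mem_fd h
  by_contra hlt
  rw [not_le] at hlt
  have hpos := τ.im_pos
  nlinarith

theorem fd_lintegral_Ici_half_lt_top :
    (∫⁻ y : ℝ, (Set.Ici (1 / 2 : ℝ)).indicator
      (fun y => (((1 / ‖y‖₊) ^ 2 : NNReal) : ENNReal)) y) < ⊤ := by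
  rw [lintegral_indicator measurableSet_Ici]
  have hint : IntegrableOn (fun t : ℝ => t ^ (-2 : ℝ)) (Set.Ioi (1 / 2 : ℝ)) :=
    integrableOn_Ioi_rpow_of_lt (by norm_num) (by norm_num)
  have hint' : IntegrableOn (fun t : ℝ => t ^ (-2 : ℝ)) (Set.Ici (1 / 2 : ℝ)) :=
    Iff.mpr integrableOn_Ici_iff_integrableOn_Ioi hint
  have h1 := hint'.lintegral_lt_top
  refine lt_of_le_of_lt (le_of_eq ?_) h1
  refine setLIntegral_congr_fun measurableSet_Ici (fun y hy => ?_)
  have hy0 : (0 : ℝ) < y := lt_of_lt_of_le (by norm_num) (Set.mem_Ici.mp hy)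
  rw [ENNReal.ofReal, ENNReal.coe_inj]
  ext
  simp only [NNReal.coe_pow, NNReal.coe_div, NNReal.coe_one, coe_nnnorm, Real.norm_eq_abs,
    abs_of_pos hy0]
  rw [Real.coe_toNNReal _ (Real.rpow_nonneg hy0.le _)]
  rw [show (-2 : ℝ) = ((-2 : ℤ) : ℝ) by norm_num, Real.rpow_intCast]
  simp [zpow_neg]

/-- (F1) the standard fundamental domain has finite hyperbolic area. -/
theorem volume_fd_lt_top : volume (𝒟 : Set ℍ) < ⊤ := by
  rw [volume_eq_lintegral]
  set S : Set ℂ := {z | z.re ∈ Set.Icc (-(1 / 2) : ℝ) (1 / 2) ∧ z.im ∈ Set.Ici (1 / 2 : ℝ)}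
    with hS
  have hsub : (↑) '' (𝒟 : Set ℍ) ⊆ S := by
    rintro z ⟨τ, hτ, rfl⟩
    refine ⟨?_, fd_im_ge_half hτ⟩
    have := hτ.2
    rw [abs_le] at this
    exact ⟨by simpa using this.1, by simpa using this.2⟩
  refine lt_of_le_of_lt (lintegral_mono_set hsub) ?_
  have hSm : MeasurableSet S := by
    apply MeasurableSet.inter
    · exact measurableSet_Icc.preimage Complex.measurable_re
    · exact measurableSet_Ici.preimage Complex.measurable_im
  rw [← lintegral_indicator hSm]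
  set G : ℝ × ℝ → ENNReal := fun p =>
    (Set.Icc (-(1 / 2) : ℝ) (1 / 2)).indicator 1 p.1 *
      (Set.Ici (1 / 2 : ℝ)).indicator (fun y => (((1 / ‖y‖₊) ^ 2 : NNReal) : ENNReal)) p.2
    with hG
  have e : (fun z : ℂ => S.indicator (fun z : ℂ => (((1 / ‖z.im‖₊) ^ 2 : NNReal) : ENNReal)) z)
      = fun z => G (Complex.measurableEquivRealProd z) := by
    funext z
    by_cases h1 : z.re ∈ Set.Icc (-(1 / 2) : ℝ) (1 / 2) <;>
      by_cases h2 : z.im ∈ Set.Ici (1 / 2 : ℝ)
    · have hz : z ∈ S := ⟨h1, h2⟩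
      rw [Set.indicator_of_mem hz]
      simp only [hG, Complex.measurableEquivRealProd_apply]
      rw [Set.indicator_of_mem h1, Set.indicator_of_mem h2]
      simp
    · have hz : z ∉ S := fun h => h2 h.2
      rw [Set.indicator_of_notMem hz]
      simp only [hG, Complex.measurableEquivRealProd_apply]
      rw [Set.indicator_of_notMem h2, mul_zero]
    · have hz : z ∉ S := fun h => h1 h.1
      rw [Set.indicator_of_notMem hz]
      simp only [hG, Complex.measurableEquivRealProd_apply]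
      rw [Set.indicator_of_notMem h1, zero_mul]
    · have hz : z ∉ S := fun h => h1 h.1
      rw [Set.indicator_of_notMem hz]
      simp only [hG, Complex.measurableEquivRealProd_apply]
      rw [Set.indicator_of_notMem h1, zero_mul]
  rw [e, Complex.volume_preserving_equiv_real_prod.lintegral_comp_emb
    Complex.measurableEquivRealProd.measurableEmbedding G]
  rw [hG]
  rw [show (volume : Measure (ℝ × ℝ)) = (volume : Measure ℝ).prod (volume : Measure ℝ) from rfl]
  rw [lintegral_prod_mul]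
  · rw [lintegral_indicator_one measurableSet_Icc]
    refine ENNReal.mul_lt_top ?_ fd_lintegral_Ici_half_lt_top
    rw [Real.volume_Icc]
    exact ENNReal.ofReal_lt_top
  · exact (measurable_one.indicator measurableSet_Icc).aemeasurable
  · refine (Measurable.indicator ?_ measurableSet_Ici).aemeasurable
    fun_prop

theorem fd_volume_re_eq (c : ℝ) : volume {z : ℂ | z.re = c} = 0 := by
  have e : {z : ℂ | z.re = c}
      = Complex.measurableEquivRealProd ⁻¹' (({c} : Set ℝ) ×ˢ (Set.univ : Set ℝ)) := by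
    ext z
    simp [Complex.measurableEquivRealProd_apply]
  rw [e, Complex.volume_preserving_equiv_real_prod.measure_preimage
    ((measurableSet_singleton c).prod MeasurableSet.univ).nullMeasurableSet]
  rw [show (volume : Measure (ℝ × ℝ)) = (volume : Measure ℝ).prod (volume : Measure ℝ) from rfl,
    Measure.prod_prod]
  simp

/-- (F2) the boundary of the standard fundamental domain is a null set. -/
theorem volume_fd_diff_fdo : volume ((𝒟 : Set ℍ) \ 𝒟ᵒ) = 0 := by
  rw [volume_eq_lintegral]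
  apply setLIntegral_measure_zero
  have hsub : (↑) '' ((𝒟 : Set ℍ) \ 𝒟ᵒ) ⊆
      Metric.sphere (0 : ℂ) 1 ∪ ({z : ℂ | z.re = 1 / 2} ∪ {z : ℂ | z.re = -(1 / 2)}) := by
    rintro z ⟨τ, ⟨hτ, hτ'⟩, rfl⟩
    by_cases h1 : 1 < Complex.normSq (τ : ℂ)
    · right
      have h2 : ¬ |τ.re| < 1 / 2 := fun h => hτ' ⟨h1, h⟩
      have h3 : |τ.re| = 1 / 2 := le_antisymm hτ.2 (not_lt.mp h2)
      rcases (abs_eq (by norm_num)).mp h3 with h | h
      · left; exact h
      · right; exact h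
    · left
      have h2 : Complex.normSq (τ : ℂ) = 1 := le_antisymm (not_lt.mp h1) hτ.1
      rw [mem_sphere_zero_iff_norm]
      have h3 : ‖(τ : ℂ)‖ ^ 2 = 1 := by rw [← Complex.normSq_eq_norm_sq, h2]
      have h4 : (0 : ℝ) ≤ ‖(τ : ℂ)‖ := norm_nonneg _
      nlinarith
  refine measure_mono_null hsub ?_
  exact measure_union_null (Measure.addHaar_sphere volume 0 1)
    (measure_union_null (fd_volume_re_eq _) (fd_volume_re_eq _))

/-- The set of points whose orbit misses the boundary of `𝒟` is conull. -/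
theorem fd_ae_forall_smul_notMem_boundary :
    ∀ᵐ τ : ℍ ∂volume, ∀ γ : SL(2, ℤ), γ • τ ∉ (𝒟 : Set ℍ) \ 𝒟ᵒ := by
  have := countable_SL2Z
  rw [ae_all_iff]
  intro γ
  rw [ae_iff]
  simp only [not_not]
  have e : {τ : ℍ | γ • τ ∈ (𝒟 : Set ℍ) \ 𝒟ᵒ}
      = (fun τ : ℍ => (γ : GL (Fin 2) ℝ) • τ) ⁻¹' ((𝒟 : Set ℍ) \ 𝒟ᵒ) := rfl
  rw [e, measure_preimage_smul]
  exact volume_fd_diff_fdo

theorem fd_mapGL_neg_ne (γ : SL(2, ℤ)) :
    (Matrix.SpecialLinearGroup.mapGL ℝ γ : GL (Fin 2) ℝ)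
      ≠ Matrix.SpecialLinearGroup.mapGL ℝ (-γ) := by
  intro h
  have h1 : γ = -γ := Matrix.SpecialLinearGroup.mapGL_injective h
  have h2 := congrArg (fun g : SL(2, ℤ) => (g : Matrix (Fin 2) (Fin 2) ℤ)) h1
  simp only [Matrix.SpecialLinearGroup.coe_neg] at h2
  have h3 : (γ : Matrix (Fin 2) (Fin 2) ℤ) = 0 := by
    have : (2 : ℤ) • (γ : Matrix (Fin 2) (Fin 2) ℤ) = 0 := by
      rw [two_smul]
      nth_rewrite 1 [h2]
      simp
    exact (smul_eq_zero.mp this).resolve_left (by norm_num)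
  have h4 := Matrix.SpecialLinearGroup.det_coe γ
  rw [h3] at h4
  simp at h4

/-- (U5) `(1/2) 1_𝒟` is a weight for (the image in `GL(2, ℝ)` of) `SL(2, ℤ)`. -/
theorem isWeight_fd :
    IsWeight (volume : Measure ℍ) SLZ (fun τ => Set.indicator (𝒟 : Set ℍ) (fun _ => (1 / 2 : ℝ)) τ) := by
  classical
  have hmeas : MeasurableSet (𝒟 : Set ℍ) := isClosed_fd.measurableSet
  refine ⟨measurable_const.indicator hmeas, fun x => Set.indicator_nonneg (fun _ _ => by norm_num) x,
    ?_, ?_⟩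
  · rw [integrable_indicator_iff hmeas]
    exact integrableOn_const volume_fd_lt_top.ne
  · filter_upwards [fd_ae_forall_smul_notMem_boundary] with τ hτ
    obtain ⟨γ₀, hγ₀⟩ := exists_smul_mem_fd τ
    have hγ₀o : γ₀ • τ ∈ 𝒟ᵒ := by
      by_contra h
      exact hτ γ₀ ⟨hγ₀, h⟩
    set δ₁ : SLZ := ⟨Matrix.SpecialLinearGroup.mapGL ℝ γ₀, ⟨γ₀, rfl⟩⟩ with hδ₁
    set δ₂ : SLZ := ⟨Matrix.SpecialLinearGroup.mapGL ℝ (-γ₀), ⟨-γ₀, rfl⟩⟩ with hδ₂
    have hne : δ₁ ≠ δ₂ := by
      intro h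
      exact fd_mapGL_neg_ne γ₀ (congrArg Subtype.val h)
    have hsupp : ∀ δ : SLZ, δ ∉ ({δ₁, δ₂} : Finset SLZ) →
        Set.indicator (𝒟 : Set ℍ) (fun _ => (1 / 2 : ℝ)) ((δ : GL (Fin 2) ℝ) • τ) = 0 := by
      intro δ hδ
      apply Set.indicator_of_notMem
      intro hmem
      apply hδ
      obtain ⟨γ, hγ⟩ := δ.2
      have hmem' : γ • τ ∈ 𝒟 := by
        have : γ • τ = (δ : GL (Fin 2) ℝ) • τ := by rw [← hγ]; rfl
        rw [this]; exact hmem
      have hmem'' : (γ * γ₀⁻¹) • (γ₀ • τ) ∈ 𝒟 := by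
        rw [← mul_smul, inv_mul_cancel_right]
        exact hmem'
      rcases eq_one_or_neg_one_of_mem_fdo_mem_fd hγ₀o hmem'' with h | h
      · have hγeq : γ = γ₀ := by
          rw [mul_inv_eq_one] at h
          exact h
        rw [Finset.mem_insert]
        left
        apply Subtype.ext
        rw [← hγ, hγeq]
      · have hγeq : γ = -γ₀ := by
          have := congrArg (· * γ₀) h
          simpa using this
        rw [Finset.mem_insert, Finset.mem_singleton]
        right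
        apply Subtype.ext
        rw [← hγ, hγeq]
    have h1 : Set.indicator (𝒟 : Set ℍ) (fun _ => (1 / 2 : ℝ)) ((δ₁ : GL (Fin 2) ℝ) • τ) = 1 / 2 :=
      Set.indicator_of_mem (by exact hγ₀) _
    have h2 : Set.indicator (𝒟 : Set ℍ) (fun _ => (1 / 2 : ℝ)) ((δ₂ : GL (Fin 2) ℝ) • τ) = 1 / 2 := by
      apply Set.indicator_of_mem
      have : ((δ₂ : GL (Fin 2) ℝ) • τ) = (-γ₀) • τ := rfl
      rw [this, SL_neg_smul]
      exact hγ₀
    have hsum : HasSum (fun δ : SLZ =>
        Set.indicator (𝒟 : Set ℍ) (fun _ => (1 / 2 : ℝ)) ((δ : GL (Fin 2) ℝ) • τ))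
        (∑ δ ∈ ({δ₁, δ₂} : Finset SLZ),
          Set.indicator (𝒟 : Set ℍ) (fun _ => (1 / 2 : ℝ)) ((δ : GL (Fin 2) ℝ) • τ)) :=
      hasSum_sum_of_ne_finset_zero hsupp
    rw [Finset.sum_pair hne, h1, h2] at hsum
    norm_num at hsum
    exact hsum

end Fermat.Agent.Pet
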