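import Mathlib
import Fermat.Prelude.Def_CuspForm_HeckeAlgebra

/-!
# Lib/Petersson: interface between the analytic and the algebraic half (architect: helper33)

`HasSelfAdjointForm N k` is what the analytic half (Petersson scalar product, files
`FdBasic`, `Weights`, `Mean`, `Adjoint`) proves and what the algebraic half (`Reduced`, owner
helper31) consumes.  It is deliberately minimal: a biadditive form on `S_k(Γ₀(N))` which is
definite and for which every `T_ℓ`, `ℓ ∤ N`, is self-adjoint.  This suffices for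
"a nilpotent element of the Hecke algebra away from the level is zero":
every `t` in `adjoin ℤ {T_ℓ}` is self-adjoint; `t ^ 2 = 0` gives `B (t f) (t f) = B (t^2 f) f = 0`.
-/

namespace Fermat.Agent.Pet

open CongruenceSubgroup

/-- There is a biadditive definite form on `S_k(Γ₀(N))` for which all `T_ℓ` (`ℓ ∤ N`) are
self-adjoint. -/
def HasSelfAdjointForm (N : ℕ) [NeZero N] (k : ℤ) : Prop :=
  ∃ B : CuspForm (Gamma0 N) k → CuspForm (Gamma0 N) k → ℂ,
    (∀ f g h, B (f + g) h = B f h + B g h) ∧
    (∀ f g h, B f (g + h) = B f g + B f h) ∧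
    (∀ f, B f f = 0 → f = 0) ∧
    (∀ (ℓ : ℕ) (hℓ : ℓ.Prime) (hℓN : ¬ ℓ ∣ N) (f g : CuspForm (Gamma0 N) k),
      B (CuspForm.heckeTLin k hℓ hℓN f) g = B f (CuspForm.heckeTLin k hℓ hℓN g))

end Fermat.Agent.Pet
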