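import Mathlib
import Fermat.Agent.Lib.Petersson.Defs

/-!
# Lib/Petersson/Levels: group theory of the principal congruence subgroups inside `GL(2, ℝ)`
(owner: helper27).  Pure matrix computations, no analysis.

`ModularForm.heckeDiagMatrix p = diag(p, 1)`.  For `γ = [a, b; c, d] ∈ Γ(m p)`:
`diag(p,1) γ diag(p,1)⁻¹ = [a, p b; c / p, d] ∈ Γ(m)`, and every element of `Γ(m p p)` is of this
form, so the conjugate contains `Γ(m p p)` and has finite index in `Γ(m)`.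
-/

set_option linter.unusedVariables false

namespace Fermat.Agent.Pet

open CongruenceSubgroup

open scoped MatrixGroups

/-! ### auxiliary lemmas -/

theorem countable_SL2Z_aux : Countable SL(2, ℤ) := by
  have : Countable (Matrix (Fin 2) (Fin 2) ℤ) := by
    unfold Matrix
    infer_instance
  exact (Subtype.val_injective (p := fun A : Matrix (Fin 2) (Fin 2) ℤ => A.det = 1)).countable

theorem mapGL_injective_aux :
    Function.Injective (Matrix.SpecialLinearGroup.mapGL ℝ : SL(2, ℤ) →* GL (Fin 2) ℝ) :=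
  Matrix.SpecialLinearGroup.mapGL_injective

/-- membership in `Γ(m)` by divisibility. -/
theorem mem_Gamma_iff_dvd_aux {m : ℕ} {γ : SL(2, ℤ)} :
    γ ∈ Gamma m ↔ (m : ℤ) ∣ γ 0 0 - 1 ∧ (m : ℤ) ∣ γ 0 1 ∧ (m : ℤ) ∣ γ 1 0 ∧ (m : ℤ) ∣ γ 1 1 - 1 := by
  rw [Gamma_mem]
  have e1 : ∀ x : ℤ, ((x : ZMod m) = 1) ↔ (m : ℤ) ∣ x - 1 := by
    intro x
    rw [← Int.cast_one, ZMod.intCast_eq_intCast_iff_dvd_sub, ← dvd_neg, neg_sub]
  have e0 : ∀ x : ℤ, ((x : ZMod m) = 0) ↔ (m : ℤ) ∣ x := by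
    intro x
    exact ZMod.intCast_zmod_eq_zero_iff_dvd x m
  rw [e1, e1, e0, e0]

theorem Gamma_le_of_dvd_aux {m m' : ℕ} (h : m ∣ m') : Gamma m' ≤ Gamma m := by
  intro γ hγ
  rw [mem_Gamma_iff_dvd_aux] at hγ ⊢
  obtain ⟨h1, h2, h3, h4⟩ := hγ
  have hd : (m : ℤ) ∣ (m' : ℤ) := Int.natCast_dvd_natCast.mpr h
  exact ⟨hd.trans h1, hd.trans h2, hd.trans h3, hd.trans h4⟩

theorem det_SL_aux (γ : SL(2, ℤ)) : (γ 0 0) * (γ 1 1) - (γ 0 1) * (γ 1 0) = 1 := by
  have := γ.det_coe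
  rw [Matrix.det_fin_two] at this
  exact this

/-- an element of `SL(2, ℤ)` from its entries. -/
theorem exists_SL_aux (a b c d : ℤ) (h : a * d - b * c = 1) :
    ∃ γ : SL(2, ℤ), γ 0 0 = a ∧ γ 0 1 = b ∧ γ 1 0 = c ∧ γ 1 1 = d := by
  have hA : (!![a, b; c, d] : Matrix (Fin 2) (Fin 2) ℤ).det = 1 := by
    rw [Matrix.det_fin_two_of, h]
  exact ⟨⟨!![a, b; c, d], hA⟩, rfl, rfl, rfl, rfl⟩

/-- the matrix of `mapGL ℝ γ`. -/
theorem val_mapGL_aux (γ : SL(2, ℤ)) :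
    ((Matrix.SpecialLinearGroup.mapGL ℝ γ : GL (Fin 2) ℝ) : Matrix (Fin 2) (Fin 2) ℝ) =
      !![((γ 0 0 : ℤ) : ℝ), ((γ 0 1 : ℤ) : ℝ); ((γ 1 0 : ℤ) : ℝ), ((γ 1 1 : ℤ) : ℝ)] := by
  ext i j
  fin_cases i <;> fin_cases j <;> simp [Matrix.SpecialLinearGroup.mapGL]

/-! ### the stubs -/

theorem countable_SLZ : Countable SLZ := by
  unfold SLZ
  have := countable_SL2Z_aux
  exact (MonoidHom.rangeRestrict_surjective
    (Matrix.SpecialLinearGroup.mapGL ℝ : SL(2, ℤ) →* GL (Fin 2) ℝ)).countable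

theorem GammaGL_le_SLZ (m : ℕ) : GammaGL m ≤ SLZ := by
  unfold GammaGL SLZ
  exact Subgroup.map_le_range _ _

theorem countable_GammaGL (m : ℕ) : Countable (GammaGL m) := by
  have := countable_SLZ
  exact (Subgroup.inclusion_injective (GammaGL_le_SLZ m)).countable

theorem relIndex_GammaGL_SLZ_ne_zero (m : ℕ) [NeZero m] : (GammaGL m).relIndex SLZ ≠ 0 := by
  unfold GammaGL SLZ
  rw [MonoidHom.range_eq_map, Subgroup.relIndex_map_map_of_injective _ _ mapGL_injective_aux,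
    Subgroup.relIndex_top_right]
  exact Subgroup.FiniteIndex.index_ne_zero

theorem GammaGL_le_of_dvd {m m' : ℕ} (h : m ∣ m') : GammaGL m' ≤ GammaGL m := by
  unfold GammaGL
  exact Subgroup.map_mono (Gamma_le_of_dvd_aux h)

theorem relIndex_GammaGL_ne_zero {m m' : ℕ} [NeZero m'] (h : m ∣ m') :
    (GammaGL m').relIndex (GammaGL m) ≠ 0 := by
  unfold GammaGL
  rw [Subgroup.relIndex_map_map_of_injective _ _ mapGL_injective_aux]
  intro h0
  have h1 : (Gamma m').index ≠ 0 := Subgroup.FiniteIndex.index_ne_zero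
  apply h1
  rw [← Subgroup.relIndex_top_right]
  exact Subgroup.relIndex_eq_zero_of_le_right le_top h0

/-- `Γ(m)` is normal in `SL(2, ℤ)`. -/
theorem map_conj_SL_GammaGL (m : ℕ) (γ : SL(2, ℤ)) :
    (GammaGL m).map (MulAut.conj (Matrix.SpecialLinearGroup.mapGL ℝ γ)).toMonoidHom = GammaGL m := by
  unfold GammaGL
  rw [Subgroup.map_map]
  have hcomp : ((MulAut.conj (Matrix.SpecialLinearGroup.mapGL ℝ γ)).toMonoidHom.comp
      (Matrix.SpecialLinearGroup.mapGL ℝ : SL(2, ℤ) →* GL (Fin 2) ℝ)) =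
      (Matrix.SpecialLinearGroup.mapGL ℝ : SL(2, ℤ) →* GL (Fin 2) ℝ).comp
        (MulAut.conj γ).toMonoidHom := by
    ext1 x
    simp [MulAut.conj_apply]
  rw [hcomp, ← Subgroup.map_map]
  congr 1
  have hn : (Gamma m).Normal := Gamma_normal m
  ext x
  simp only [Subgroup.mem_map, MulEquiv.coe_toMonoidHom, MulAut.conj_apply]
  constructor
  · rintro ⟨y, hy, rfl⟩
    exact hn.conj_mem y hy γ
  · intro hx
    refine ⟨γ⁻¹ * x * γ, ?_, by group⟩
    have := hn.conj_mem x hx γ⁻¹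
    simpa using this

theorem map_conj_diag_GammaGL_le (m p : ℕ) [NeZero p] :
    (GammaGL (m * p)).map (MulAut.conj (ModularForm.heckeDiagMatrix p)).toMonoidHom ≤ GammaGL m := by
  have hp : p ≠ 0 := NeZero.ne p
  unfold GammaGL
  rintro _ ⟨_, ⟨γ, hγ, rfl⟩, rfl⟩
  rw [SetLike.mem_coe, mem_Gamma_iff_dvd_aux] at hγ
  obtain ⟨h00, h01, h10, h11⟩ := hγ
  push_cast at h00 h01 h10 h11
  obtain ⟨c', hc'⟩ := h10
  have hdet := det_SL_aux γ
  obtain ⟨γ', e00, e01, e10, e11⟩ := exists_SL_aux (γ 0 0) (p * γ 0 1) (m * c') (γ 1 1) (by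
    linear_combination hdet + (γ 0 1) * hc')
  refine ⟨γ', ?_, ?_⟩
  · rw [SetLike.mem_coe, mem_Gamma_iff_dvd_aux, e00, e01, e10, e11]
    refine ⟨?_, ?_, ?_, ?_⟩
    · exact dvd_trans (dvd_mul_right _ _) h00
    · obtain ⟨b', hb'⟩ := h01
      rw [hb']
      exact ⟨p * p * b', by ring⟩
    · exact dvd_mul_right _ _
    · exact dvd_trans (dvd_mul_right _ _) h11
  · simp only [MulEquiv.coe_toMonoidHom, MulAut.conj_apply]
    rw [eq_mul_inv_iff_mul_eq]
    apply Units.ext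
    simp only [Units.val_mul, ModularForm.val_heckeDiagMatrix hp, val_mapGL_aux, e00, e01, e10,
      e11, hc']
    ext i j
    fin_cases i <;> fin_cases j <;>
      simp [Matrix.mul_apply, Fin.sum_univ_two] <;> ring

/-- the conjugate of `Γ(m p)` by `diag(p, 1)` contains `Γ(m p p)`. -/
theorem GammaGL_le_map_conj_diag_aux (m p : ℕ) [NeZero p] :
    GammaGL (m * p * p) ≤
      (GammaGL (m * p)).map (MulAut.conj (ModularForm.heckeDiagMatrix p)).toMonoidHom := by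
  have hp : p ≠ 0 := NeZero.ne p
  unfold GammaGL
  rintro _ ⟨γ', hγ', rfl⟩
  rw [SetLike.mem_coe, mem_Gamma_iff_dvd_aux] at hγ'
  obtain ⟨h00, h01, h10, h11⟩ := hγ'
  push_cast at h00 h01 h10 h11
  obtain ⟨b'', hb''⟩ := h01
  have hdet := det_SL_aux γ'
  obtain ⟨γ, e00, e01, e10, e11⟩ := exists_SL_aux (γ' 0 0) (m * p * b'') (p * γ' 1 0) (γ' 1 1) (by
    linear_combination hdet + (γ' 1 0) * hb'')
  refine ⟨Matrix.SpecialLinearGroup.mapGL ℝ γ, ⟨γ, ?_, rfl⟩, ?_⟩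
  · rw [SetLike.mem_coe, mem_Gamma_iff_dvd_aux, e00, e01, e10, e11]
    push_cast
    refine ⟨?_, ?_, ?_, ?_⟩
    · exact dvd_trans (dvd_mul_right _ _) h00
    · exact dvd_mul_right _ _
    · obtain ⟨c'', hc''⟩ := h10
      rw [hc'']
      exact ⟨p * p * c'', by ring⟩
    · exact dvd_trans (dvd_mul_right _ _) h11
  · simp only [MulEquiv.coe_toMonoidHom, MulAut.conj_apply]
    rw [mul_inv_eq_iff_eq_mul]
    apply Units.ext
    simp only [Units.val_mul, ModularForm.val_heckeDiagMatrix hp, val_mapGL_aux, e00, e01, e10,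
      e11, hb'']
    ext i j
    fin_cases i <;> fin_cases j <;>
      simp [Matrix.mul_apply, Fin.sum_univ_two] <;> ring

theorem relIndex_map_conj_diag_ne_zero (m p : ℕ) [NeZero m] [NeZero p] :
    ((GammaGL (m * p)).map (MulAut.conj (ModularForm.heckeDiagMatrix p)).toMonoidHom).relIndex
      (GammaGL m) ≠ 0 := by
  have hm : m ≠ 0 := NeZero.ne m
  have hp : p ≠ 0 := NeZero.ne p
  have : NeZero (m * p * p) := ⟨mul_ne_zero (mul_ne_zero hm hp) hp⟩
  intro h0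
  have h1 := Subgroup.relIndex_dvd_of_le_left (GammaGL m) (GammaGL_le_map_conj_diag_aux m p)
  rw [h0, zero_dvd_iff] at h1
  exact relIndex_GammaGL_ne_zero (m := m) (m' := m * p * p) ⟨p * p, by ring⟩ h1

/-- invariance under `Γ(m)` (as a subgroup of `SL(2, ℤ)`) is invariance under `GammaGL m`. -/
theorem forall_mem_GammaGL_iff {α : Type*} (m : ℕ) (φ : UpperHalfPlane → α) :
    (∀ δ ∈ GammaGL m, ∀ τ, φ (δ • τ) = φ τ) ↔ ∀ γ ∈ Gamma m, ∀ τ, φ (γ • τ) = φ τ := by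
  unfold GammaGL
  constructor
  · intro h γ hγ τ
    exact h _ (Subgroup.mem_map_of_mem _ hγ) τ
  · rintro h δ ⟨γ, hγ, rfl⟩ τ
    exact h γ hγ τ

end Fermat.Agent.Pet
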