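import Mathlib
import Fermat.Agent.Lib.Petersson.Defs

/-!
# Lib/Petersson/PetHeckeProps: the Petersson integrand of two cusp forms (helper50)

`petersson k f g` is continuous, bounded and `Γ(N)`-invariant for `f, g ∈ S_k(Γ₀(N))`.
-/

set_option autoImplicit false

namespace Fermat.Agent.Pet

open CongruenceSubgroup UpperHalfPlane ModularForm

open scoped MatrixGroups ModularForm

/-- the Petersson integrand of two cusp forms is invariant under `Γ₀(N)`. -/
theorem petersson_smul_of_mem_Gamma0 (N : ℕ) (k : ℤ) (f g : CuspForm (Gamma0 N) k)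
    (γ : SL(2, ℤ)) (hγ : γ ∈ Gamma0 N) (τ : ℍ) :
    petersson k f g (γ • τ) = petersson k f g τ := by
  have hγ' : (γ : GL (Fin 2) ℝ) ∈ (Gamma0 N).map (Matrix.SpecialLinearGroup.mapGL ℝ) :=
    Subgroup.mem_map_of_mem _ hγ
  have hf : (⇑f) ∣[k] γ = ⇑f := SlashInvariantForm.slash_action_eqn f _ hγ'
  have hg : (⇑g) ∣[k] γ = ⇑g := SlashInvariantForm.slash_action_eqn g _ hγ'
  rw [← petersson_slash_SL, hf, hg]

/-- the Petersson integrand of two cusp forms is continuous, bounded and `Γ(N)`-invariant. -/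
theorem petersson_cuspForm_props_aux (N : ℕ) [NeZero N] (k : ℤ) (f g : CuspForm (Gamma0 N) k) :
    Continuous (petersson k f g) ∧ (∃ C, ∀ τ, ‖petersson k f g τ‖ ≤ C) ∧
      (∀ γ ∈ Gamma N, ∀ τ, petersson k f g (γ • τ) = petersson k f g τ) := by
  refine ⟨?_, ?_, ?_⟩
  · exact petersson_continuous k (CuspFormClass.holo f).continuous
      (CuspFormClass.holo g).continuous
  · exact CuspFormClass.petersson_bounded_left k _ f g
  · intro γ hγ τ
    refine petersson_smul_of_mem_Gamma0 N k f g γ ?_ τ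
    rw [Gamma_mem] at hγ
    rw [Gamma0_mem]
    exact hγ.2.2.1

end Fermat.Agent.Pet
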