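import Mathlib
import Fermat.Agent.Lib.Petersson.Defs
import Fermat.Agent.Lib.Petersson.PetHeckeProps

/-!
# Lib/Petersson/PetHecke: the Petersson integrand of `T_p f` (owner: helper31; `petersson_cuspForm_props` by helper50).
Pure slash-action computations, no measure theory.

Notation: `β_j = heckeMatrix p j = [1, j; 0, p]`, `β_∞ = heckeDiagMatrix p = [p, 0; 0, 1]`,
`T_p f = ∑_{j<p} f ∣[k] β_j + f ∣[k] β_∞` (Prelude `ModularForm.heckeT_def`).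
Take `φ := petersson k (f ∣[k] β_0) g`.  Then, pointwise:
* `β_j = β_0 * T^j`, so `petersson k (f ∣ β_j) g = φ ∘ T^j` (`UpperHalfPlane.petersson_slash_SL`,
  `g ∣ T^j = g`);
* `p ∤ N`: choose `u, b` with `p u - b N = 1`, `γ = [p u, b; N, 1]`, `δ = [u, b; N, p] ∈ Γ₀(N)`;
  then `δ β_∞ = β_0 γ`, so `f ∣ β_∞ = (f ∣ β_0) ∣ γ` and `petersson k (f ∣ β_∞) g = φ ∘ γ`;
* `petersson k f (g ∣ β_∞) = φ ∘ β_∞` (direct from `slash_heckeMatrix_apply`,
  `slash_heckeDiagMatrix_apply`: both sides are `p^(k-1) conj (f τ) g (p τ) y^k`);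
* `β_j = δ β_∞ γ⁻¹ T^j`, so `petersson k f (g ∣ β_j) = (φ ∘ β_∞) ∘ (γ⁻¹ T^j)`;
* `φ` and `φ ∘ β_∞` are invariant under `Γ(N p)`: for `γ ∈ Γ(N p)`, `β_0 γ β_0⁻¹ ∈ Γ₀(N)` and
  `β_∞ γ β_∞⁻¹ ∈ Γ₀(N)`;
* `φ` is bounded: `‖φ τ‖² = ‖petersson (f∣β_0) (f∣β_0) τ‖ ‖petersson g g τ‖`, the first factor is
  `p^(k-2) ‖petersson f f (β_0 τ)‖` (`UpperHalfPlane.petersson_slash`), and
  `CuspFormClass.petersson_bounded_left`.
-/

namespace Fermat.Agent.Pet

open CongruenceSubgroup UpperHalfPlane ModularForm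

open scoped MatrixGroups ModularForm ComplexConjugate


/-- the integral matrix `[a, b; c, d]` of determinant one. -/
def phSL (a b c d : ℤ) (h : a * d - b * c = 1) : SL(2, ℤ) :=
  ⟨!![a, b; c, d], by rw [Matrix.det_fin_two_of]; exact h⟩

theorem ph_coe_apply (A : SL(2, ℤ)) (i j : Fin 2) :
    ((A : GL (Fin 2) ℝ) : Matrix (Fin 2) (Fin 2) ℝ) i j = ((A i j : ℤ) : ℝ) := by
  simp [Matrix.SpecialLinearGroup.map_apply_coe, RingHom.mapMatrix_apply]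

theorem ph_val_phSL (a b c d : ℤ) (h : a * d - b * c = 1) :
    (((phSL a b c d h : SL(2, ℤ)) : GL (Fin 2) ℝ) : Matrix (Fin 2) (Fin 2) ℝ) =
      !![(a : ℝ), (b : ℝ); (c : ℝ), (d : ℝ)] := by
  ext i j
  rw [ph_coe_apply]
  fin_cases i <;> fin_cases j <;> rfl

theorem ph_GL_ext {A B : GL (Fin 2) ℝ}
    (h00 : (A : Matrix (Fin 2) (Fin 2) ℝ) 0 0 = (B : Matrix (Fin 2) (Fin 2) ℝ) 0 0)
    (h01 : (A : Matrix (Fin 2) (Fin 2) ℝ) 0 1 = (B : Matrix (Fin 2) (Fin 2) ℝ) 0 1)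
    (h10 : (A : Matrix (Fin 2) (Fin 2) ℝ) 1 0 = (B : Matrix (Fin 2) (Fin 2) ℝ) 1 0)
    (h11 : (A : Matrix (Fin 2) (Fin 2) ℝ) 1 1 = (B : Matrix (Fin 2) (Fin 2) ℝ) 1 1) : A = B := by
  apply Matrix.GeneralLinearGroup.ext
  intro i j
  fin_cases i <;> fin_cases j <;> assumption

/-- `β_0 * γ = ε * β_0` when `γ = [a, p b; c, d]`, `ε = [a, b; p c, d]`. -/
theorem ph_conj_zero {p : ℕ} (hp : p ≠ 0) (a b c d : ℤ) (h : a * d - (p * b) * c = 1)
    (h' : a * d - b * (p * c) = 1) :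
    heckeMatrix p 0 * ((phSL a (p * b) c d h : SL(2, ℤ)) : GL (Fin 2) ℝ) =
      ((phSL a b (p * c) d h' : SL(2, ℤ)) : GL (Fin 2) ℝ) * heckeMatrix p 0 := by
  apply ph_GL_ext <;>
  simp only [Matrix.GeneralLinearGroup.coe_mul, ph_val_phSL, val_heckeMatrix hp, Matrix.mul_apply,
    Fin.sum_univ_two] <;> simp <;> ring

/-- `β_∞ * γ = ε * β_∞` when `γ = [a, b; p c, d]`, `ε = [a, p b; c, d]`. -/
theorem ph_conj_infty {p : ℕ} (hp : p ≠ 0) (a b c d : ℤ) (h : a * d - b * (p * c) = 1)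
    (h' : a * d - (p * b) * c = 1) :
    heckeDiagMatrix p * ((phSL a b (p * c) d h : SL(2, ℤ)) : GL (Fin 2) ℝ) =
      ((phSL a (p * b) c d h' : SL(2, ℤ)) : GL (Fin 2) ℝ) * heckeDiagMatrix p := by
  apply ph_GL_ext <;>
  simp only [Matrix.GeneralLinearGroup.coe_mul, ph_val_phSL, val_heckeDiagMatrix hp,
    Matrix.mul_apply, Fin.sum_univ_two] <;> simp <;> ring

/-- `β_j = β_0 * [1, j; 0, 1]`. -/
theorem ph_heckeMatrix_eq {p : ℕ} (hp : p ≠ 0) (j : ℕ) :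
    heckeMatrix p j = heckeMatrix p 0 * ((phSL 1 j 0 1 (by ring) : SL(2, ℤ)) : GL (Fin 2) ℝ) := by
  apply ph_GL_ext <;>
  simp only [Matrix.GeneralLinearGroup.coe_mul, ph_val_phSL, val_heckeMatrix hp, Matrix.mul_apply,
    Fin.sum_univ_two] <;> simp

/-- `δ β_∞ = β_0 γ` for `γ = [p x, -y; N, 1]`, `δ = [x, -y; N, p]`. -/
theorem ph_swap {p : ℕ} (hp : p ≠ 0) (N : ℕ) (x y : ℤ) (h : (p * x) * 1 - (-y) * N = 1)
    (h' : x * p - (-y) * N = 1) :
    ((phSL x (-y) N p h' : SL(2, ℤ)) : GL (Fin 2) ℝ) * heckeDiagMatrix p =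
      heckeMatrix p 0 * ((phSL (p * x) (-y) N 1 h : SL(2, ℤ)) : GL (Fin 2) ℝ) := by
  apply ph_GL_ext <;>
  simp only [Matrix.GeneralLinearGroup.coe_mul, ph_val_phSL, val_heckeMatrix hp,
    val_heckeDiagMatrix hp, Matrix.mul_apply, Fin.sum_univ_two] <;> simp <;> ring

theorem ph_det (γ : SL(2, ℤ)) : γ 0 0 * γ 1 1 - γ 0 1 * γ 1 0 = 1 := by
  have := γ.prop
  rwa [Matrix.det_fin_two] at this

theorem ph_eq_phSL (γ : SL(2, ℤ)) (a b c d : ℤ) (h : a * d - b * c = 1) (h00 : γ 0 0 = a)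
    (h01 : γ 0 1 = b) (h10 : γ 1 0 = c) (h11 : γ 1 1 = d) : γ = phSL a b c d h := by
  apply Subtype.ext
  ext i j
  fin_cases i <;> fin_cases j <;> simpa [phSL]

theorem ph_phSL_mem_Gamma0 (N : ℕ) (a b c d : ℤ) (h) (hc : (N : ℤ) ∣ c) :
    phSL a b c d h ∈ Gamma0 N := by
  rw [Gamma0_mem]
  exact (ZMod.intCast_zmod_eq_zero_iff_dvd _ N).mpr hc

variable {N : ℕ} {k : ℤ}

/-- slash invariance of a cusp form under `Γ₀(N)`, `SL(2, ℤ)` form. -/
theorem ph_slash_eq (f : CuspForm (Gamma0 N) k) {γ : SL(2, ℤ)} (hγ : γ ∈ Gamma0 N) :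
    (⇑f) ∣[k] γ = ⇑f := by
  rw [ModularForm.SL_slash]
  exact SlashInvariantFormClass.slash_action_eq f _ ⟨γ, hγ, rfl⟩

theorem ph_petersson_add_left (F G H : ℍ → ℂ) (τ : ℍ) :
    petersson k (F + G) H τ = petersson k F H τ + petersson k G H τ := by
  simp only [petersson, Pi.add_apply, map_add]; ring

theorem ph_petersson_add_right (F G H : ℍ → ℂ) (τ : ℍ) :
    petersson k F (G + H) τ = petersson k F G τ + petersson k F H τ := by
  simp only [petersson, Pi.add_apply]; ring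

theorem ph_petersson_sum_left {ι : Type*} (s : Finset ι) (F : ι → ℍ → ℂ) (H : ℍ → ℂ) (τ : ℍ) :
    petersson k (∑ i ∈ s, F i) H τ = ∑ i ∈ s, petersson k (F i) H τ := by
  classical
  induction s using Finset.induction_on with
  | empty => simp [petersson]
  | insert a s ha ih => rw [Finset.sum_insert ha, Finset.sum_insert ha, ph_petersson_add_left, ih]

theorem ph_petersson_sum_right {ι : Type*} (s : Finset ι) (F : ℍ → ℂ) (H : ι → ℍ → ℂ) (τ : ℍ) :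
    petersson k F (∑ i ∈ s, H i) τ = ∑ i ∈ s, petersson k F (H i) τ := by
  classical
  induction s using Finset.induction_on with
  | empty => simp [petersson]
  | insert a s ha ih => rw [Finset.sum_insert ha, Finset.sum_insert ha, ph_petersson_add_right, ih]

/-- the pointwise identity `petersson f (g ∣ β_∞) = petersson (f ∣ β_0) g ∘ β_∞`. -/
theorem ph_key {p : ℕ} (hp : p ≠ 0) (k : ℤ) (f g : ℍ → ℂ) (τ : ℍ) :
    petersson k f (g ∣[k] heckeDiagMatrix p) τ =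
      petersson k (f ∣[k] heckeMatrix p 0) g (heckeDiagMatrix p • τ) := by
  have hpC : (p : ℂ) ≠ 0 := by exact_mod_cast hp
  have h1 : heckeMatrix p 0 • (heckeDiagMatrix p • τ) = τ := by
    apply UpperHalfPlane.ext
    rw [coe_heckeMatrix_smul hp, coe_heckeDiagMatrix_smul hp]
    field_simp
    simp
  have h2 : (heckeDiagMatrix p • τ).im = p * τ.im := by
    have := congrArg Complex.im (coe_heckeDiagMatrix_smul hp τ)
    simpa using this
  simp only [petersson, slash_heckeDiagMatrix_apply k hp, slash_heckeMatrix_apply k hp, h1, h2]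
  push_cast
  rw [mul_zpow, map_mul, map_inv₀, Complex.conj_natCast, zpow_sub_one₀ hpC]
  ring


/-- slash by `β_j`: `f ∣ β_j = (f ∣ β_0) ∣ [1, j; 0, 1]`. -/
theorem ph_slash_heckeMatrix {p : ℕ} (hp : p ≠ 0) (j : ℕ) (F : ℍ → ℂ) :
    F ∣[k] heckeMatrix p j = (F ∣[k] heckeMatrix p 0) ∣[k] (phSL 1 j 0 1 (by ring)) := by
  rw [ph_heckeMatrix_eq hp j, SlashAction.slash_mul, ModularForm.SL_slash]

/-- the Petersson integrand of a pair that is slash-invariant under `γ`. -/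
theorem ph_petersson_smul (F G : ℍ → ℂ) (γ : SL(2, ℤ)) (hF : F ∣[k] γ = F) (hG : G ∣[k] γ = G)
    (τ : ℍ) : petersson k F G (γ • τ) = petersson k F G τ := by
  rw [← petersson_slash_SL, hF, hG]

theorem ph_norm_petersson (F G : ℍ → ℂ) (τ : ℍ) :
    ‖petersson k F G τ‖ = ‖F τ‖ * ‖G τ‖ * τ.im ^ k := by
  rw [petersson, norm_mul, norm_mul, Complex.norm_conj, norm_zpow, Complex.norm_real,
    Real.norm_of_nonneg τ.im_pos.le]

theorem ph_norm_petersson_sq (F G : ℍ → ℂ) (τ : ℍ) :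
    ‖petersson k F G τ‖ ^ 2 = ‖petersson k F F τ‖ * ‖petersson k G G τ‖ := by
  simp only [ph_norm_petersson]; ring

/-- members of `Γ(N p)`: shape of the entries. -/
theorem ph_Gamma_entries {N p : ℕ} {γ : SL(2, ℤ)} (hγ : γ ∈ Gamma (N * p)) :
    (∃ b', γ 0 1 = p * b') ∧ (∃ c', γ 1 0 = p * c' ∧ (N : ℤ) ∣ c') ∧ (N : ℤ) ∣ γ 1 0 := by
  rw [Gamma_mem] at hγ
  obtain ⟨-, hb, hc, -⟩ := hγ
  have hb' : ((N * p : ℕ) : ℤ) ∣ γ 0 1 := (ZMod.intCast_zmod_eq_zero_iff_dvd _ _).mp hb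
  have hc' : ((N * p : ℕ) : ℤ) ∣ γ 1 0 := (ZMod.intCast_zmod_eq_zero_iff_dvd _ _).mp hc
  push_cast at hb' hc'
  obtain ⟨b', hb'⟩ := hb'
  obtain ⟨c', hc'⟩ := hc'
  exact ⟨⟨N * b', by rw [hb']; ring⟩, ⟨N * c', by rw [hc']; ring, dvd_mul_right _ _⟩,
    ⟨p * c', by rw [hc']; ring⟩⟩

/-- the Petersson integrand of two cusp forms is continuous, bounded and `Γ(N)`-invariant. -/
theorem petersson_cuspForm_props (N : ℕ) [NeZero N] (k : ℤ) (f g : CuspForm (Gamma0 N) k) :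
    Continuous (petersson k f g) ∧ (∃ C, ∀ τ, ‖petersson k f g τ‖ ≤ C) ∧
      (∀ γ ∈ Gamma N, ∀ τ, petersson k f g (γ • τ) = petersson k f g τ) :=
  petersson_cuspForm_props_aux N k f g

/-- decomposition of the Petersson integrands of `(T_p f, g)` and `(f, T_p g)`. -/
theorem exists_petersson_heckeT_decomp (N : ℕ) [NeZero N] (k : ℤ) {p : ℕ} (hp : p.Prime)
    (hpN : ¬ p ∣ N) (f g : CuspForm (Gamma0 N) k) :
    ∃ (φ : ℍ → ℂ) (σ σ' : Fin (p + 1) → SL(2, ℤ)),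
      Continuous φ ∧ (∃ C, ∀ τ, ‖φ τ‖ ≤ C) ∧
      (∀ γ ∈ Gamma (N * p), ∀ τ, φ (γ • τ) = φ τ) ∧
      (∀ γ ∈ Gamma (N * p), ∀ τ,
        φ (heckeDiagMatrix p • γ • τ) = φ (heckeDiagMatrix p • τ)) ∧
      (∀ τ, petersson k (CuspForm.heckeTLin k hp hpN f) g τ = ∑ i, φ (σ i • τ)) ∧
      (∀ τ, petersson k f (CuspForm.heckeTLin k hp hpN g) τ =
        ∑ i, φ (heckeDiagMatrix p • σ' i • τ)) := by
  have hp0 : p ≠ 0 := hp.ne_zero
  have hpC : (p : ℂ) ≠ 0 := by exact_mod_cast hp0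
  -- Bezout
  have hcop : IsCoprime (p : ℤ) (N : ℤ) := by
    rw [Int.isCoprime_iff_gcd_eq_one, Int.gcd_natCast_natCast]
    exact (Nat.Prime.coprime_iff_not_dvd hp).mpr hpN
  obtain ⟨x, y, hxy⟩ := hcop
  have hγdet : ((p : ℤ) * x) * 1 - (-y) * N = 1 := by linarith
  have hδdet : x * (p : ℤ) - (-y) * N = 1 := by linarith
  set γ : SL(2, ℤ) := phSL (p * x) (-y) N 1 hγdet with hγ_def
  set δ : SL(2, ℤ) := phSL x (-y) N p hδdet with hδ_def
  have hγmem : γ ∈ Gamma0 N := ph_phSL_mem_Gamma0 N _ _ _ _ _ dvd_rfl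
  have hδmem : δ ∈ Gamma0 N := ph_phSL_mem_Gamma0 N _ _ _ _ _ dvd_rfl
  have hswap : (δ : GL (Fin 2) ℝ) * heckeDiagMatrix p = heckeMatrix p 0 * (γ : GL (Fin 2) ℝ) :=
    ph_swap hp0 N x y hγdet hδdet
  let Tj : ℕ → SL(2, ℤ) := fun j => phSL 1 j 0 1 (by ring)
  have hTmem : ∀ j, Tj j ∈ Gamma0 N := fun j => ph_phSL_mem_Gamma0 N _ _ _ _ _ (dvd_zero _)
  set F₀ : ℍ → ℂ := ⇑f ∣[k] heckeMatrix p 0 with hF₀
  set φ : ℍ → ℂ := petersson k F₀ ⇑g with hφ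
  -- slash identities
  have hfinf : ∀ h : CuspForm (Gamma0 N) k,
      ⇑h ∣[k] heckeDiagMatrix p = (⇑h ∣[k] heckeMatrix p 0) ∣[k] γ := by
    intro h
    conv_lhs => rw [← ph_slash_eq h hδmem]
    rw [ModularForm.SL_slash, ← SlashAction.slash_mul, hswap, SlashAction.slash_mul,
      ← ModularForm.SL_slash]
  have hfzero : ∀ h : CuspForm (Gamma0 N) k,
      ⇑h ∣[k] heckeMatrix p 0 = (⇑h ∣[k] heckeDiagMatrix p) ∣[k] γ⁻¹ := by
    intro h
    rw [hfinf h, ← SlashAction.slash_mul, mul_inv_cancel, SlashAction.slash_one]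
  -- the four term identities
  have D1 : ∀ j τ, petersson k (⇑f ∣[k] heckeMatrix p j) ⇑g τ = φ (Tj j • τ) := by
    intro j τ
    rw [hφ, ← petersson_slash_SL, ph_slash_eq g (hTmem j), ph_slash_heckeMatrix hp0 j]
  have D2 : ∀ τ, petersson k (⇑f ∣[k] heckeDiagMatrix p) ⇑g τ = φ (γ • τ) := by
    intro τ
    rw [hφ, ← petersson_slash_SL, ph_slash_eq g hγmem, hfinf f]
  have D3 : ∀ τ, petersson k ⇑f (⇑g ∣[k] heckeDiagMatrix p) τ = φ (heckeDiagMatrix p • τ) :=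
    fun τ => ph_key hp0 k _ _ τ
  have D4 : ∀ j τ, petersson k ⇑f (⇑g ∣[k] heckeMatrix p j) τ =
      φ (heckeDiagMatrix p • (γ⁻¹ * Tj j) • τ) := by
    intro j τ
    rw [← D3, ← petersson_slash_SL, ph_slash_eq f (mul_mem (inv_mem hγmem) (hTmem j)),
      ph_slash_heckeMatrix hp0 j, hfzero g, ← SlashAction.slash_mul]
  refine ⟨φ, fun i => if (i : ℕ) < p then Tj i else γ,
    fun i => if (i : ℕ) < p then γ⁻¹ * Tj i else 1, ?_, ?_, ?_, ?_, ?_, ?_⟩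
  · -- continuity
    refine petersson_continuous k ?_ (CuspFormClass.holo g).continuous
    have : F₀ = fun τ => (p : ℂ)⁻¹ * f (heckeMatrix p 0 • τ) := by
      funext τ
      rw [hF₀, slash_heckeMatrix_apply k hp0]
    rw [this]
    exact continuous_const.mul
      ((CuspFormClass.holo f).continuous.comp (continuous_const_smul (heckeMatrix p 0)))
  · -- boundedness
    obtain ⟨Cf, hCf⟩ := CuspFormClass.petersson_bounded_left k _ f f
    obtain ⟨Cg, hCg⟩ := CuspFormClass.petersson_bounded_left k _ g g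
    have hF₀bd : ∀ τ, ‖petersson k F₀ F₀ τ‖ ≤ (p : ℝ) ^ (k - 2) * Cf := by
      intro τ
      rw [hF₀, petersson_slash, norm_mul, norm_σ, det_heckeMatrix hp0, Nat.abs_cast,
        Complex.ofReal_natCast, norm_zpow, Complex.norm_natCast]
      exact mul_le_mul_of_nonneg_left (hCf _) (zpow_nonneg (Nat.cast_nonneg p) _)
    refine ⟨(p : ℝ) ^ (k - 2) * Cf * Cg + 1, fun τ => ?_⟩
    have h1 : ‖φ τ‖ ^ 2 ≤ (p : ℝ) ^ (k - 2) * Cf * Cg := by
      rw [hφ, ph_norm_petersson_sq]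
      exact mul_le_mul (hF₀bd τ) (hCg τ) (norm_nonneg _) ((norm_nonneg _).trans (hF₀bd τ))
    nlinarith [sq_nonneg (‖φ τ‖ - 1), norm_nonneg (φ τ)]
  · -- invariance of φ
    intro γ' hγ' τ
    obtain ⟨⟨b', hb'⟩, -, hNc⟩ := ph_Gamma_entries hγ'
    have hγ'0 : γ' ∈ Gamma0 N := by
      rw [Gamma0_mem]; exact (ZMod.intCast_zmod_eq_zero_iff_dvd _ N).mpr hNc
    have hdet := ph_det γ'
    have h1 : γ' 0 0 * γ' 1 1 - (p * b') * γ' 1 0 = 1 := by rw [← hb']; exact hdet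
    have h2 : γ' 0 0 * γ' 1 1 - b' * (p * γ' 1 0) = 1 := by linarith
    have hγ'eq : γ' = phSL (γ' 0 0) (p * b') (γ' 1 0) (γ' 1 1) h1 :=
      ph_eq_phSL γ' _ _ _ _ h1 rfl hb' rfl rfl
    have hε : phSL (γ' 0 0) b' (p * γ' 1 0) (γ' 1 1) h2 ∈ Gamma0 N :=
      ph_phSL_mem_Gamma0 N _ _ _ _ _ (Dvd.dvd.mul_left hNc _)
    refine ph_petersson_smul _ _ γ' ?_ (ph_slash_eq g hγ'0) τ
    rw [hF₀, ModularForm.SL_slash, ← SlashAction.slash_mul]
    conv_lhs => rw [hγ'eq, ph_conj_zero hp0 _ _ _ _ h1 h2, SlashAction.slash_mul,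
      ← ModularForm.SL_slash, ph_slash_eq f hε]
  · -- invariance of φ ∘ β∞
    intro γ' hγ' τ
    obtain ⟨-, ⟨c', hc', hNc'⟩, hNc⟩ := ph_Gamma_entries hγ'
    have hγ'0 : γ' ∈ Gamma0 N := by
      rw [Gamma0_mem]; exact (ZMod.intCast_zmod_eq_zero_iff_dvd _ N).mpr hNc
    have hdet := ph_det γ'
    have h1 : γ' 0 0 * γ' 1 1 - γ' 0 1 * (p * c') = 1 := by rw [← hc']; exact hdet
    have h2 : γ' 0 0 * γ' 1 1 - (p * γ' 0 1) * c' = 1 := by linarith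
    have hγ'eq : γ' = phSL (γ' 0 0) (γ' 0 1) (p * c') (γ' 1 1) h1 :=
      ph_eq_phSL γ' _ _ _ _ h1 rfl rfl hc' rfl
    have hε : phSL (γ' 0 0) (p * γ' 0 1) c' (γ' 1 1) h2 ∈ Gamma0 N :=
      ph_phSL_mem_Gamma0 N _ _ _ _ _ hNc'
    rw [← D3, ← D3]
    refine ph_petersson_smul _ _ γ' (ph_slash_eq f hγ'0) ?_ τ
    rw [ModularForm.SL_slash, ← SlashAction.slash_mul]
    conv_lhs => rw [hγ'eq, ph_conj_infty hp0 _ _ _ _ h1 h2, SlashAction.slash_mul,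
      ← ModularForm.SL_slash, ph_slash_eq g hε]
  · intro τ
    rw [CuspForm.coe_heckeTLin_apply, heckeT_def, ph_petersson_add_left, ph_petersson_sum_left,
      Fin.sum_univ_castSucc, Finset.sum_range]
    congr 1
    · refine Finset.sum_congr rfl fun i _ => ?_
      simp only [Fin.val_castSucc, Fin.is_lt, if_true]
      exact D1 _ _
    · simp only [Fin.val_last, lt_irrefl, if_false]
      exact D2 _
  · intro τ
    rw [CuspForm.coe_heckeTLin_apply, heckeT_def, ph_petersson_add_right, ph_petersson_sum_right,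
      Fin.sum_univ_castSucc, Finset.sum_range]
    congr 1
    · refine Finset.sum_congr rfl fun i _ => ?_
      simp only [Fin.val_castSucc, Fin.is_lt, if_true]
      exact D4 _ _
    · simp only [Fin.val_last, lt_irrefl, if_false, one_smul]
      exact D3 _

end Fermat.Agent.Pet
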