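import Mathlib
import Fermat.Agent.Lib.Petersson.Defs

/-!
# Lib/Petersson/WeightsU1: unfolding for weights (helper47, for helper33's `Weights.lean`)

* `wU1_integrable_smul`   : `w • φ` is integrable for a weight `w` and bounded measurable `φ`;
* `wU1_hasSum_integral`   : partition of unity: `∫ u • φ = ∑_i ∫ (v_i u) • φ` when `∑_i v_i = 1` a.e.;
* `wU1_integral_smul_eq`  : (U1) the integral of an invariant function against a weight does not
  depend on the weight.
The signatures of the first and the last are those of `IsWeight.integrable_smul` and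
`IsWeight.integral_smul_eq` in `Weights.lean`.
-/

set_option autoImplicit false

namespace Fermat.Agent.Pet

open MeasureTheory

section general

variable {X : Type*} [MeasurableSpace X] {μ : Measure X}
  {E : Type*} [NormedAddCommGroup E] [NormedSpace ℝ E]

/-- integrability of `u • φ` for integrable `u` and bounded measurable `φ`. -/
theorem wU1_integrable_smul_of_integrable {u : X → ℝ} (hu : Integrable u μ)
    {φ : X → E} (hφm : AEStronglyMeasurable φ μ) (hφb : ∃ C, ∀ x, ‖φ x‖ ≤ C) :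
    Integrable (fun x => u x • φ x) μ := by
  obtain ⟨C, hC⟩ := hφb
  exact hu.smul_bdd C hφm (Filter.Eventually.of_forall hC)

/-- partition of unity: if `∑_i v_i = 1` almost everywhere, `v_i ≥ 0` measurable, `u` integrable
and `φ` bounded measurable, then `∫ u • φ = ∑_i ∫ (v_i * u) • φ`. -/
theorem wU1_hasSum_integral {ι : Type*} [Countable ι] {v : ι → X → ℝ}
    (hvm : ∀ i, Measurable (v i)) (hv0 : ∀ i x, 0 ≤ v i x)
    (hv : ∀ᵐ x ∂μ, HasSum (fun i => v i x) 1) {u : X → ℝ} (hu : Integrable u μ)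
    {φ : X → E} (hφm : AEStronglyMeasurable φ μ) (hφb : ∃ C, ∀ x, ‖φ x‖ ≤ C) :
    HasSum (fun i => ∫ x, (v i x * u x) • φ x ∂μ) (∫ x, u x • φ x ∂μ) := by
  obtain ⟨C₀, hC₀⟩ := hφb
  set C : ℝ := |C₀| with hCdef
  have hC : ∀ x, ‖φ x‖ ≤ C := fun x => (hC₀ x).trans (le_abs_self C₀)
  have hC0 : 0 ≤ C := abs_nonneg _
  refine hasSum_integral_of_dominated_convergence (fun i x => v i x * (|u x| * C)) ?_ ?_ ?_ ?_ ?_
  · intro i
    exact (((hvm i).aestronglyMeasurable).mul hu.aestronglyMeasurable).smul hφm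
  · intro i
    refine Filter.Eventually.of_forall fun x => ?_
    rw [norm_smul, Real.norm_eq_abs, abs_mul, abs_of_nonneg (hv0 i x), mul_assoc]
    exact mul_le_mul_of_nonneg_left
      (mul_le_mul_of_nonneg_left (hC x) (abs_nonneg _)) (hv0 i x)
  · filter_upwards [hv] with x hx
    exact (hx.summable).mul_right _
  · have h1 : Integrable (fun x => |u x| * C) μ := (hu.abs).mul_const C
    refine h1.congr ?_
    filter_upwards [hv] with x hx
    rw [tsum_mul_right, hx.tsum_eq, one_mul]
  · filter_upwards [hv] with x hx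
    have := (hx.mul_right (u x)).smul_const (φ x)
    simpa using this

end general

section action

variable {G X : Type*} [Group G] [MulAction G X] [MeasurableSpace X] [MeasurableConstSMul G X]
  {μ : Measure X} [SMulInvariantMeasure G X μ]
  {E : Type*} [NormedAddCommGroup E] [NormedSpace ℝ E]

omit [MeasurableConstSMul G X] [SMulInvariantMeasure G X μ] in
/-- integrability of `w • φ` for bounded measurable `φ`
(= `IsWeight.integrable_smul` of `Weights.lean`). -/
theorem wU1_integrable_smul {Δ : Subgroup G} {w : X → ℝ} (hw : IsWeight μ Δ w)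
    {φ : X → E} (hφm : AEStronglyMeasurable φ μ) (hφb : ∃ C, ∀ x, ‖φ x‖ ≤ C) :
    Integrable (fun x => w x • φ x) μ :=
  wU1_integrable_smul_of_integrable hw.integrable hφm hφb

omit [MeasurableConstSMul G X] [SMulInvariantMeasure G X μ] in
/-- the sum over the inverses. -/
theorem wU1_hasSum_inv {Δ : Subgroup G} {w : X → ℝ} (hw : IsWeight μ Δ w) :
    ∀ᵐ x ∂μ, HasSum (fun δ : Δ => w (((δ : G)⁻¹) • x)) 1 := by
  filter_upwards [hw.hasSum] with x hx
  have := (Equiv.inv Δ).hasSum_iff.mpr hx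
  simpa [Function.comp_def] using this

/-- (U1) unfolding: the integral of an invariant function against a weight does not depend on
the weight (= `IsWeight.integral_smul_eq` of `Weights.lean`). -/
theorem wU1_integral_smul_eq {Δ : Subgroup G} [Countable Δ] {w w' : X → ℝ}
    (hw : IsWeight μ Δ w) (hw' : IsWeight μ Δ w')
    {φ : X → E} (hφm : AEStronglyMeasurable φ μ) (hφb : ∃ C, ∀ x, ‖φ x‖ ≤ C)
    (hφ : ∀ δ ∈ Δ, ∀ x, φ (δ • x) = φ x) :
    ∫ x, w x • φ x ∂μ = ∫ x, w' x • φ x ∂μ := by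
  -- `∫ w φ = ∑_δ ∫ w'(δ x) w(x) φ(x)`
  have h1 : HasSum (fun δ : Δ => ∫ x, (w' ((δ : G) • x) * w x) • φ x ∂μ)
      (∫ x, w x • φ x ∂μ) :=
    wU1_hasSum_integral (v := fun δ : Δ => fun x => w' ((δ : G) • x))
      (fun δ => hw'.measurable.comp (measurable_const_smul (δ : G)))
      (fun δ x => hw'.nonneg _) hw'.hasSum hw.integrable hφm hφb
  -- `∫ w' φ = ∑_δ ∫ w(δ⁻¹ x) w'(x) φ(x)`
  have h2 : HasSum (fun δ : Δ => ∫ x, (w (((δ : G)⁻¹) • x) * w' x) • φ x ∂μ)
      (∫ x, w' x • φ x ∂μ) :=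
    wU1_hasSum_integral (v := fun δ : Δ => fun x => w (((δ : G)⁻¹) • x))
      (fun δ => hw.measurable.comp (measurable_const_smul ((δ : G)⁻¹)))
      (fun δ x => hw.nonneg _) (wU1_hasSum_inv hw) hw'.integrable hφm hφb
  -- termwise equality by the change of variables `x ↦ δ⁻¹ x`
  have h3 : ∀ δ : Δ, ∫ x, (w' ((δ : G) • x) * w x) • φ x ∂μ
      = ∫ x, (w (((δ : G)⁻¹) • x) * w' x) • φ x ∂μ := by
    intro δ
    rw [← integral_smul_eq_self (μ := μ) (fun x => (w' ((δ : G) • x) * w x) • φ x)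
      (g := (δ : G)⁻¹)]
    refine integral_congr_ae (Filter.Eventually.of_forall fun x => ?_)
    have hinv : ((δ : G)⁻¹) ∈ Δ := Δ.inv_mem δ.2
    simp only [smul_inv_smul, hφ _ hinv x]
    rw [mul_comm]
  have h4 : (fun δ : Δ => ∫ x, (w' ((δ : G) • x) * w x) • φ x ∂μ)
      = fun δ : Δ => ∫ x, (w (((δ : G)⁻¹) • x) * w' x) • φ x ∂μ := funext h3
  rw [h4] at h1
  exact h1.unique h2

end action

end Fermat.Agent.Pet
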