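import Mathlib
import Fermat.Agent.Lib.Petersson.Defs
import Fermat.Agent.Lib.Petersson.WeightsU1

/-!
# Lib/Petersson/WeightsKey: conjugation, finite index and the key theorem (helper47)

For helper33's `Weights.lean`, with the exact statements of the stubs there:
* `wK_conj`           = (U2) `IsWeight.conj`;
* `wK_of_le`          = (U3) `IsWeight.of_le`;
* `wK_mean_comp_smul` = the key theorem `mean_comp_smul`.
-/

set_option autoImplicit false
set_option linter.style.haveILetI false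

namespace Fermat.Agent.Pet

open MeasureTheory

/-! ## Sums over a product with a finite first factor -/

/-- a nonnegative family on `ι × κ`, `ι` finite, is summable fibre by fibre. -/
theorem wK_hasSum_prod {ι κ : Type*} [Fintype ι] {F : ι × κ → ℝ} (hF0 : ∀ p, 0 ≤ F p)
    {a : ι → ℝ} (h : ∀ i, HasSum (fun k => F (i, k)) (a i)) : HasSum F (∑ i, a i) := by
  have hs : Summable F := by
    rw [summable_prod_of_nonneg (f := F) (fun p => hF0 p)]
    exact ⟨fun i => (h i).summable, Summable.of_finite⟩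
  have h2 := hs.tsum_prod' (fun i => (h i).summable)
  have h3 : ∑' i, ∑' k, F (i, k) = ∑ i, a i := by
    rw [tsum_fintype]
    exact Finset.sum_congr rfl (fun i _ => (h i).tsum_eq)
  rw [← h3, ← h2]
  exact hs.hasSum

/-! ## The coset decomposition -/

/-- `(L, h) ↦ (out L) * h` is a bijection `(Δ ⧸ H) × H ≃ Δ`. -/
noncomputable def wK_cosetEquiv {D : Type*} [Group D] (H : Subgroup D) : (D ⧸ H) × H ≃ D where
  toFun p := p.1.out * (p.2 : D)
  invFun g := ((g : D ⧸ H), ⟨((g : D ⧸ H)).out⁻¹ * g, by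
    rw [← QuotientGroup.eq]
    exact QuotientGroup.out_eq' _⟩)
  left_inv := by
    rintro ⟨L, h⟩
    have h1 : ((L.out * (h : D) : D) : D ⧸ H) = L := by
      rw [QuotientGroup.mk_mul_of_mem _ h.2]
      exact QuotientGroup.out_eq' L
    refine Prod.ext h1 ?_
    apply Subtype.ext
    show ((L.out * (h : D) : D) : D ⧸ H).out⁻¹ * (L.out * (h : D)) = h
    rw [h1]
    group
  right_inv := by
    intro g
    show ((g : D ⧸ H)).out * (((g : D ⧸ H)).out⁻¹ * g) = g
    group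

section action

variable {G X : Type*} [Group G] [MulAction G X] [MeasurableSpace X] [MeasurableConstSMul G X]
  {μ : Measure X} [SMulInvariantMeasure G X μ]
  {E : Type*} [NormedAddCommGroup E] [NormedSpace ℝ E]

/-- (U2) conjugation. -/
theorem wK_conj {Δ : Subgroup G} {w : X → ℝ} (hw : IsWeight μ Δ w) (β : G) :
    IsWeight μ (Δ.map (MulAut.conj β).toMonoidHom) (fun x => w (β⁻¹ • x)) where
  measurable := hw.measurable.comp (measurable_const_smul β⁻¹)
  nonneg := fun x => hw.nonneg _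
  integrable := (measurePreserving_smul β⁻¹ μ).integrable_comp_of_integrable hw.integrable
  hasSum := by
    filter_upwards [(tendsto_smul_ae μ β⁻¹).eventually hw.hasSum] with x hx
    have hinj : Function.Injective (MulAut.conj β).toMonoidHom := (MulAut.conj β).injective
    let e : Δ ≃ Δ.map (MulAut.conj β).toMonoidHom :=
      (Δ.equivMapOfInjective _ hinj).toEquiv
    refine (e.hasSum_iff).mp ?_
    have hfun : ((fun δ' : Δ.map (MulAut.conj β).toMonoidHom => w (β⁻¹ • (δ' : G) • x)) ∘ e)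
        = fun δ : Δ => w ((δ : G) • β⁻¹ • x) := by
      funext δ
      have he : ((e δ : Δ.map (MulAut.conj β).toMonoidHom) : G) = β * (δ : G) * β⁻¹ := rfl
      simp only [Function.comp_apply, he, smul_smul]
      congr 2
      group
    rw [hfun]
    exact hx

omit [MeasurableConstSMul G X] in
/-- (U3) a weight for a subgroup of finite index gives a weight for the big group. -/
theorem wK_of_le {Δ' Δ : Subgroup G} [Countable Δ] (h : Δ' ≤ Δ)
    (hn : Δ'.relIndex Δ ≠ 0) {w : X → ℝ} (hw : IsWeight μ Δ' w) :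
    IsWeight μ Δ (fun x => w x / (Δ'.relIndex Δ : ℝ)) where
  measurable := hw.measurable.div_const _
  nonneg := fun x => div_nonneg (hw.nonneg x) (Nat.cast_nonneg _)
  integrable := hw.integrable.div_const _
  hasSum := by
    classical
    set H : Subgroup Δ := Δ'.subgroupOf Δ with hH
    have hfin : Finite (Δ ⧸ H) := Nat.finite_of_card_ne_zero hn
    letI : Fintype (Δ ⧸ H) := Fintype.ofFinite _
    have hcard : (Fintype.card (Δ ⧸ H) : ℝ) = (Δ'.relIndex Δ : ℝ) := by
      rw [← Nat.card_eq_fintype_card]; rfl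
    have hn' : ((Δ'.relIndex Δ : ℕ) : ℝ) ≠ 0 := Nat.cast_ne_zero.mpr hn
    -- for almost every `x`, all the points `(out L)⁻¹ x` are good
    have hgood : ∀ᵐ x ∂μ, ∀ L : Δ ⧸ H,
        HasSum (fun δ : Δ' => w ((δ : G) • (((L.out : Δ) : G)⁻¹ • x))) 1 := by
      rw [ae_all_iff]
      intro L
      exact (tendsto_smul_ae μ (((L.out : Δ) : G)⁻¹)).eventually hw.hasSum
    filter_upwards [hgood] with x hx
    -- reindex by `g ↦ g⁻¹` and by the coset decomposition
    refine ((Equiv.inv Δ).hasSum_iff).mp ?_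
    refine ((wK_cosetEquiv H).hasSum_iff).mp ?_
    have hone : (1 : ℝ) = ∑ _L : Δ ⧸ H, (1 / (Δ'.relIndex Δ : ℝ)) := by
      rw [Finset.sum_const, Finset.card_univ, nsmul_eq_mul, hcard]
      field_simp
    rw [hone]
    refine wK_hasSum_prod (fun p => div_nonneg (hw.nonneg _) (Nat.cast_nonneg _)) ?_
    intro L
    -- the fibre over `L`
    have h1 := hx L
    let e : H ≃ Δ' := (Subgroup.subgroupOfEquivOfLe h).toEquiv
    have h2 : HasSum (fun k : H => w ((((k : Δ) : G))⁻¹ • (((L.out : Δ) : G)⁻¹ • x))) 1 := by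
      have h3 := ((Equiv.inv Δ').hasSum_iff).mpr h1
      have h4 := (e.hasSum_iff).mpr h3
      exact h4
    have h5 := h2.div_const (Δ'.relIndex Δ : ℝ)
    have hfun : ∀ k : H,
        w ((((Equiv.inv Δ) ((wK_cosetEquiv H) (L, k)) : Δ) : G) • x) / (Δ'.relIndex Δ : ℝ)
          = w ((((k : Δ) : G))⁻¹ • (((L.out : Δ) : G)⁻¹ • x)) / (Δ'.relIndex Δ : ℝ) := by
      intro k
      have hk : (((Equiv.inv Δ) ((wK_cosetEquiv H) (L, k)) : Δ) : G)
          = ((k : Δ) : G)⁻¹ * ((L.out : Δ) : G)⁻¹ := by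
        simp [wK_cosetEquiv]
      rw [hk, mul_smul]
    show HasSum (fun k : H =>
      w ((((Equiv.inv Δ) ((wK_cosetEquiv H) (L, k)) : Δ) : G) • x) / (Δ'.relIndex Δ : ℝ)) _
    simp_rw [hfun]
    exact h5

/-- **Key theorem**: the mean is invariant under "commensurators". -/
theorem wK_mean_comp_smul {Δ₁ Δ₂ : Subgroup G} [Countable Δ₁] [Countable Δ₂] {w₁ w₂ : X → ℝ}
    (hw₁ : IsWeight μ Δ₁ w₁) (hw₂ : IsWeight μ Δ₂ w₂) (β : G)
    (hβ : Δ₂.map (MulAut.conj β).toMonoidHom ≤ Δ₁)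
    (hfin : (Δ₂.map (MulAut.conj β).toMonoidHom).relIndex Δ₁ ≠ 0)
    {φ : X → E} (hφm : AEStronglyMeasurable φ μ) (hφb : ∃ C, ∀ x, ‖φ x‖ ≤ C)
    (hφ : ∀ δ ∈ Δ₁, ∀ x, φ (δ • x) = φ x) :
    mean μ w₂ (fun x => φ (β • x)) = mean μ w₁ φ := by
  set n : ℝ := ((Δ₂.map (MulAut.conj β).toMonoidHom).relIndex Δ₁ : ℝ) with hn
  have hn0 : n ≠ 0 := Nat.cast_ne_zero.mpr hfin
  have hw₃ : IsWeight μ Δ₁ (fun x => w₂ (β⁻¹ • x) / n) := wK_of_le hβ hfin (wK_conj hw₂ β)
  -- (U1) twice
  have h1 : ∫ x, (w₂ (β⁻¹ • x) / n) • φ x ∂μ = ∫ x, w₁ x • φ x ∂μ :=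
    wU1_integral_smul_eq hw₃ hw₁ hφm hφb hφ
  have h2 : ∫ x, (w₂ (β⁻¹ • x) / n) • (1 : ℝ) ∂μ = ∫ x, w₁ x • (1 : ℝ) ∂μ :=
    wU1_integral_smul_eq (φ := fun _ => (1 : ℝ)) hw₃ hw₁ aestronglyMeasurable_const
      ⟨1, fun _ => by simp⟩ (fun _ _ _ => rfl)
  simp only [smul_eq_mul, mul_one] at h2
  -- pull out the constant and change variables
  have h3 : ∫ x, (w₂ (β⁻¹ • x) / n) • φ x ∂μ = n⁻¹ • ∫ x, w₂ x • φ (β • x) ∂μ := by
    have e1 : (fun x => (w₂ (β⁻¹ • x) / n) • φ x) = fun x => n⁻¹ • (w₂ (β⁻¹ • x) • φ x) := by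
      funext x
      rw [div_eq_inv_mul, mul_smul]
    rw [e1, integral_smul]
    congr 1
    rw [← integral_smul_eq_self (μ := μ) (fun x => w₂ (β⁻¹ • x) • φ x) (g := β)]
    simp only [inv_smul_smul]
  have h4 : ∫ x, w₂ (β⁻¹ • x) / n ∂μ = n⁻¹ * ∫ x, w₂ x ∂μ := by
    have e1 : (fun x => w₂ (β⁻¹ • x) / n) = fun x => n⁻¹ * w₂ (β⁻¹ • x) := by
      funext x
      rw [div_eq_inv_mul]
    rw [e1, integral_const_mul]
    congr 1
    rw [← integral_smul_eq_self (μ := μ) (fun x => w₂ (β⁻¹ • x)) (g := β)]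
    simp only [inv_smul_smul]
  unfold mean
  rw [← h1, ← h2, h3, h4, mul_inv, inv_inv, smul_smul]
  congr 1
  field_simp

end action

end Fermat.Agent.Pet
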