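import Mathlib
import Fermat.Agent.Lib.Petersson.Defs
import Fermat.Agent.Lib.Petersson.WeightsU1
import Fermat.Agent.Lib.Petersson.WeightsKey

/-!
# Lib/Petersson/Weights: unfolding for weights (owner: helper33)
-/

namespace Fermat.Agent.Pet

open MeasureTheory

/-- `(A ⧸ H) × H ≃ A`, `(c, h) ↦ c.out * h`. -/
noncomputable def cosetProdEquiv {A : Type*} [Group A] (H : Subgroup A) : (A ⧸ H) × H ≃ A where
  toFun p := p.1.out * p.2
  invFun g := ((g : A ⧸ H), ⟨((g : A ⧸ H)).out⁻¹ * g,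
    QuotientGroup.eq.1 (QuotientGroup.out_eq' (g : A ⧸ H))⟩)
  left_inv := by
    rintro ⟨c, h⟩
    have h1 : ((c.out * (h : A) : A) : A ⧸ H) = c := by
      rw [QuotientGroup.mk_mul_of_mem _ h.2, QuotientGroup.out_eq']
    ext
    · exact h1
    · simp [h1]
  right_inv := by
    intro g
    simp

@[simp] theorem cosetProdEquiv_apply {A : Type*} [Group A] (H : Subgroup A) (p : (A ⧸ H) × H) :
    cosetProdEquiv H p = p.1.out * p.2 := rfl

variable {G X : Type*} [Group G] [MulAction G X] [MeasurableSpace X] [MeasurableConstSMul G X]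
  {μ : Measure X} [SMulInvariantMeasure G X μ]
  {E : Type*} [NormedAddCommGroup E] [NormedSpace ℝ E]

/-- integrability of `w • φ` for bounded measurable `φ` (helper47, `WeightsU1`). -/
theorem IsWeight.integrable_smul {Δ : Subgroup G} {w : X → ℝ} (hw : IsWeight μ Δ w)
    {φ : X → E} (hφm : AEStronglyMeasurable φ μ) (hφb : ∃ C, ∀ x, ‖φ x‖ ≤ C) :
    Integrable (fun x => w x • φ x) μ :=
  wU1_integrable_smul hw hφm hφb

/-- (U1) unfolding: the integral of an invariant function against a weight does not depend on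
the weight (helper47, `WeightsU1`). -/
theorem IsWeight.integral_smul_eq {Δ : Subgroup G} [Countable Δ] {w w' : X → ℝ}
    (hw : IsWeight μ Δ w) (hw' : IsWeight μ Δ w')
    {φ : X → E} (hφm : AEStronglyMeasurable φ μ) (hφb : ∃ C, ∀ x, ‖φ x‖ ≤ C)
    (hφ : ∀ δ ∈ Δ, ∀ x, φ (δ • x) = φ x) :
    ∫ x, w x • φ x ∂μ = ∫ x, w' x • φ x ∂μ :=
  wU1_integral_smul_eq hw hw' hφm hφb hφ

/-- (U2) conjugation. -/
theorem IsWeight.conj {Δ : Subgroup G} {w : X → ℝ} (hw : IsWeight μ Δ w) (β : G) :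
    IsWeight μ (Δ.map (MulAut.conj β).toMonoidHom) (fun x => w (β⁻¹ • x)) :=
  wK_conj hw β

/-- (U3) a weight for a subgroup of finite index gives a weight for the big group. -/
theorem IsWeight.of_le {Δ' Δ : Subgroup G} [Countable Δ] (h : Δ' ≤ Δ)
    (hn : Δ'.relIndex Δ ≠ 0) {w : X → ℝ} (hw : IsWeight μ Δ' w) :
    IsWeight μ Δ (fun x => w x / (Δ'.relIndex Δ : ℝ)) :=
  wK_of_le h hn hw

/-- (U4) a weight for the big group gives a weight for a subgroup of finite index. -/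
theorem IsWeight.exists_of_ge {Δ Δ₀ : Subgroup G} [Countable Δ₀] (h : Δ ≤ Δ₀)
    (hn : Δ.relIndex Δ₀ ≠ 0) {w₀ : X → ℝ} (hw : IsWeight μ Δ₀ w₀) :
    ∃ w, IsWeight μ Δ w := by
  classical
  set H : Subgroup Δ₀ := Δ.subgroupOf Δ₀ with hH
  have hfin : H.FiniteIndex := ⟨hn⟩
  let _ : Fintype (Δ₀ ⧸ H) := Subgroup.fintypeQuotientOfFiniteIndex
  refine ⟨fun x => ∑ c : Δ₀ ⧸ H, w₀ (((c.out : Δ₀) : G) • x), ?_, ?_, ?_, ?_⟩
  · exact Finset.measurable_sum _ fun c _ => hw.measurable.comp (measurable_const_smul _)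
  · intro x
    exact Finset.sum_nonneg fun c _ => hw.nonneg _
  · refine integrable_finsetSum _ fun c _ => ?_
    exact (measurePreserving_smul ((c.out : Δ₀) : G) μ).integrable_comp_of_integrable hw.integrable
  · filter_upwards [hw.hasSum] with x hx
    -- reindex
    have h1 : HasSum (fun q : (Δ₀ ⧸ H) × H => w₀ (((q.1.out * (q.2 : Δ₀) : Δ₀) : G) • x)) 1 := by
      have := (Equiv.hasSum_iff (cosetProdEquiv H)).2 hx
      exact this
    have h2 : HasSum (fun q : H × (Δ₀ ⧸ H) => w₀ (((q.2.out * (q.1 : Δ₀) : Δ₀) : G) • x)) 1 :=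
      (Equiv.hasSum_iff (Equiv.prodComm H (Δ₀ ⧸ H))).2 h1
    have h3 : HasSum (fun a : H => ∑ c : Δ₀ ⧸ H, w₀ (((c.out * (a : Δ₀) : Δ₀) : G) • x)) 1 :=
      h2.prod_fiberwise fun a => hasSum_fintype _
    have h4 := (Equiv.hasSum_iff (Subgroup.subgroupOfEquivOfLe h).toEquiv.symm).2 h3
    convert h4 using 1
    funext δ
    simp only [Function.comp_apply]
    refine Finset.sum_congr rfl fun c _ => ?_
    rw [← mul_smul]
    congr 2


/-- for a.e. `x`, a property that holds a.e. holds along the whole orbit. -/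
theorem ae_forall_smul {Δ : Subgroup G} [Countable Δ] {P : X → Prop} (hP : ∀ᵐ x ∂μ, P x) :
    ∀ᵐ x ∂μ, ∀ δ : Δ, P ((δ : G) • x) := by
  rw [ae_all_iff]
  intro δ
  exact (measurePreserving_smul (δ : G) μ).quasiMeasurePreserving.tendsto_ae.eventually hP

theorem IsWeight.integral_pos {Δ : Subgroup G} [Countable Δ] {w : X → ℝ}
    (hw : IsWeight μ Δ w) (hμ : μ ≠ 0) : 0 < ∫ x, w x ∂μ := by
  have h0 : 0 ≤ ∫ x, w x ∂μ := integral_nonneg hw.nonneg
  rcases h0.lt_or_eq with h | h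
  · exact h
  exfalso
  have hw0 : w =ᵐ[μ] 0 := (integral_eq_zero_iff_of_nonneg hw.nonneg hw.integrable).1 h.symm
  have h1 : ∀ᵐ x ∂μ, ∀ δ : Δ, w ((δ : G) • x) = 0 := ae_forall_smul (Δ := Δ) hw0
  have h2 : ∀ᵐ x ∂μ, False := by
    filter_upwards [h1, hw.hasSum] with x hx hs
    have : HasSum (fun δ : Δ => w ((δ : G) • x)) 0 := by
      simp only [hx]; exact hasSum_zero
    exact zero_ne_one (this.unique hs)
  rw [Filter.eventually_false_iff_eq_bot, ae_eq_bot] at h2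
  exact hμ h2

theorem IsWeight.eq_zero_of_integral_eq_zero [TopologicalSpace X] [OpensMeasurableSpace X]
    [μ.IsOpenPosMeasure] {Δ : Subgroup G} [Countable Δ] {w : X → ℝ} (hw : IsWeight μ Δ w)
    {ψ : X → ℝ} (hψc : Continuous ψ) (hψ0 : ∀ x, 0 ≤ ψ x) (hψb : ∃ C, ∀ x, ψ x ≤ C)
    (hψ : ∀ δ ∈ Δ, ∀ x, ψ (δ • x) = ψ x) (h0 : ∫ x, w x * ψ x ∂μ = 0) : ∀ x, ψ x = 0 := by
  by_contra hne
  obtain ⟨x₀, hx₀⟩ := not_forall.1 hne
  have hint : Integrable (fun x => w x * ψ x) μ := by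
    have := wU1_integrable_smul hw (φ := ψ) hψc.aestronglyMeasurable (by
      obtain ⟨C, hC⟩ := hψb
      refine ⟨C, fun x => ?_⟩
      rw [Real.norm_eq_abs, abs_of_nonneg (hψ0 x)]
      exact hC x)
    simpa [smul_eq_mul] using this
  have hz : (fun x => w x * ψ x) =ᵐ[μ] 0 :=
    (integral_eq_zero_iff_of_nonneg (fun x => mul_nonneg (hw.nonneg x) (hψ0 x)) hint).1 h0
  have h1 : ∀ᵐ x ∂μ, ∀ δ : Δ, w ((δ : G) • x) * ψ ((δ : G) • x) = 0 :=
    ae_forall_smul (Δ := Δ) hz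
  have hU : IsOpen {x | ψ x ≠ 0} := isOpen_ne_fun hψc continuous_const
  have hUpos : 0 < μ {x | ψ x ≠ 0} := hU.measure_pos μ ⟨x₀, hx₀⟩
  have h2 : ∀ᵐ x ∂μ, x ∉ {x | ψ x ≠ 0} := by
    filter_upwards [h1, hw.hasSum] with x hx hs hxU
    have : HasSum (fun δ : Δ => w ((δ : G) • x)) 0 := by
      have : ∀ δ : Δ, w ((δ : G) • x) = 0 := by
        intro δ
        have h3 := hx δ
        rw [hψ δ δ.2 x] at h3
        rcases mul_eq_zero.1 h3 with h | h
        · exact h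
        · exact absurd h hxU
      simp only [this]; exact hasSum_zero
    exact zero_ne_one (this.unique hs)
  have : μ {x | ψ x ≠ 0} = 0 := by
    rw [← compl_compl {x | ψ x ≠ 0}]
    exact h2
  exact hUpos.ne' this


omit [MeasurableConstSMul G X] [SMulInvariantMeasure G X μ] in
theorem IsWeight.mean_add {Δ : Subgroup G} {w : X → ℝ} (hw : IsWeight μ Δ w)
    {φ ψ : X → E} (hφm : AEStronglyMeasurable φ μ) (hφb : ∃ C, ∀ x, ‖φ x‖ ≤ C)
    (hψm : AEStronglyMeasurable ψ μ) (hψb : ∃ C, ∀ x, ‖ψ x‖ ≤ C) :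
    mean μ w (fun x => φ x + ψ x) = mean μ w φ + mean μ w ψ := by
  unfold mean
  rw [← smul_add, ← integral_add (wU1_integrable_smul hw hφm hφb) (wU1_integrable_smul hw hψm hψb)]
  simp only [smul_add]

omit [MeasurableConstSMul G X] [SMulInvariantMeasure G X μ] in
theorem IsWeight.mean_finset_sum {Δ : Subgroup G} {w : X → ℝ} (hw : IsWeight μ Δ w)
    {ι : Type*} (s : Finset ι) {φ : ι → X → E} (hφm : ∀ i ∈ s, AEStronglyMeasurable (φ i) μ)
    (hφb : ∀ i ∈ s, ∃ C, ∀ x, ‖φ i x‖ ≤ C) :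
    mean μ w (fun x => ∑ i ∈ s, φ i x) = ∑ i ∈ s, mean μ w (φ i) := by
  unfold mean
  rw [← Finset.smul_sum, ← integral_finsetSum s
    (fun i hi => wU1_integrable_smul hw (hφm i hi) (hφb i hi))]
  simp only [Finset.smul_sum]


/-- **Key theorem**: the mean is invariant under "commensurators".  With `β = 1` this is the
independence of the level, with `β ∈ Δ₁ = Δ₂` normalising it is the invariance under the big group,
and with `β = diag(p, 1)` it is the heart of the self-adjointness of `T_p`. -/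
theorem mean_comp_smul {Δ₁ Δ₂ : Subgroup G} [Countable Δ₁] [Countable Δ₂] {w₁ w₂ : X → ℝ}
    (hw₁ : IsWeight μ Δ₁ w₁) (hw₂ : IsWeight μ Δ₂ w₂) (β : G)
    (hβ : Δ₂.map (MulAut.conj β).toMonoidHom ≤ Δ₁)
    (hfin : (Δ₂.map (MulAut.conj β).toMonoidHom).relIndex Δ₁ ≠ 0)
    {φ : X → E} (hφm : AEStronglyMeasurable φ μ) (hφb : ∃ C, ∀ x, ‖φ x‖ ≤ C)
    (hφ : ∀ δ ∈ Δ₁, ∀ x, φ (δ • x) = φ x) :
    mean μ w₂ (fun x => φ (β • x)) = mean μ w₁ φ :=
  wK_mean_comp_smul hw₁ hw₂ β hβ hfin hφm hφb hφ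

end Fermat.Agent.Pet
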