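import Mathlib
import Fermat.Agent.Lib.Petersson.Interface
import Fermat.Agent.Lib.Petersson.Weights
import Fermat.Agent.Lib.Petersson.FdBasic
import Fermat.Agent.Lib.Petersson.Levels
import Fermat.Agent.Lib.Petersson.PetHecke

/-!
# Lib/Petersson/Adjoint: the Hecke operators `T_p`, `p ∤ N`, are self-adjoint (owner: helper33)
-/

namespace Fermat.Agent.Pet

open MeasureTheory UpperHalfPlane CongruenceSubgroup ModularForm

open scoped MatrixGroups ModularForm

theorem exists_isWeight_GammaGL (m : ℕ) [NeZero m] :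
    ∃ w, IsWeight (volume : Measure ℍ) (GammaGL m) w := by
  have := countable_SLZ
  exact IsWeight.exists_of_ge (GammaGL_le_SLZ m) (relIndex_GammaGL_SLZ_ne_zero m) isWeight_fd

/-- a weight for `Γ(m)`. -/
noncomputable def wt (m : ℕ) [NeZero m] : ℍ → ℝ := Classical.choose (exists_isWeight_GammaGL m)

theorem isWeight_wt (m : ℕ) [NeZero m] : IsWeight (volume : Measure ℍ) (GammaGL m) (wt m) :=
  Classical.choose_spec (exists_isWeight_GammaGL m)

/-- the mean at level `m`. -/
noncomputable def lmean (m : ℕ) [NeZero m] (φ : ℍ → ℂ) : ℂ := mean volume (wt m) φ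

/-- admissible functions of level `m`. -/
structure IsAdm (m : ℕ) (φ : ℍ → ℂ) : Prop where
  cont : Continuous φ
  bdd : ∃ C, ∀ τ, ‖φ τ‖ ≤ C
  inv : ∀ γ ∈ Gamma m, ∀ τ, φ (γ • τ) = φ τ

theorem IsAdm.aesm {m : ℕ} {φ : ℍ → ℂ} (h : IsAdm m φ) :
    AEStronglyMeasurable φ (volume : Measure ℍ) :=
  h.cont.aestronglyMeasurable

theorem IsAdm.comp_SL {m : ℕ} {φ : ℍ → ℂ} (h : IsAdm m φ) (γ : SL(2, ℤ)) :
    IsAdm m (fun τ => φ (γ • τ)) where
  cont := h.cont.comp (continuous_const_smul (Matrix.SpecialLinearGroup.mapGL ℝ γ))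
  bdd := by
    obtain ⟨C, hC⟩ := h.bdd
    exact ⟨C, fun τ => hC _⟩
  inv := by
    intro δ hδ τ
    have h1 : γ * δ * γ⁻¹ ∈ Gamma m := (Gamma_normal m).conj_mem δ hδ γ
    have := h.inv _ h1 (γ • τ)
    rw [← this, ← mul_smul, ← mul_smul]
    congr 2
    group

theorem map_conj_one_eq {G : Type*} [Group G] (H : Subgroup G) :
    H.map (MulAut.conj (1 : G)).toMonoidHom = H := by
  ext x
  simp

theorem lmean_of_dvd {m m' : ℕ} [NeZero m] [NeZero m'] (hd : m ∣ m') {φ : ℍ → ℂ}
    (h : IsAdm m φ) : lmean m' φ = lmean m φ := by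
  have := countable_GammaGL m
  have := countable_GammaGL m'
  have key := mean_comp_smul (isWeight_wt m) (isWeight_wt m') (1 : GL (Fin 2) ℝ)
    (by rw [map_conj_one_eq]; exact GammaGL_le_of_dvd hd)
    (by rw [map_conj_one_eq]; exact relIndex_GammaGL_ne_zero hd)
    h.aesm h.bdd ((forall_mem_GammaGL_iff m φ).2 h.inv)
  simpa [lmean] using key

theorem lmean_comp_SL {m : ℕ} [NeZero m] {φ : ℍ → ℂ} (h : IsAdm m φ) (γ : SL(2, ℤ)) :
    lmean m (fun τ => φ (γ • τ)) = lmean m φ := by
  have := countable_GammaGL m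
  have key := mean_comp_smul (isWeight_wt m) (isWeight_wt m)
    (Matrix.SpecialLinearGroup.mapGL ℝ γ)
    (by rw [map_conj_SL_GammaGL]) (by rw [map_conj_SL_GammaGL]; simp)
    h.aesm h.bdd ((forall_mem_GammaGL_iff m φ).2 h.inv)
  exact key

theorem lmean_comp_diag {m p : ℕ} [NeZero m] [NeZero p] {φ : ℍ → ℂ} (h : IsAdm m φ) :
    lmean (m * p) (fun τ => φ (heckeDiagMatrix p • τ)) = lmean m φ := by
  have := countable_GammaGL m
  have := countable_GammaGL (m * p)
  exact mean_comp_smul (isWeight_wt m) (isWeight_wt (m * p)) (heckeDiagMatrix p)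
    (map_conj_diag_GammaGL_le m p) (relIndex_map_conj_diag_ne_zero m p)
    h.aesm h.bdd ((forall_mem_GammaGL_iff m φ).2 h.inv)

theorem lmean_sum {m : ℕ} [NeZero m] {ι : Type*} (s : Finset ι) {φ : ι → ℍ → ℂ}
    (h : ∀ i ∈ s, IsAdm m (φ i)) :
    lmean m (fun τ => ∑ i ∈ s, φ i τ) = ∑ i ∈ s, lmean m (φ i) :=
  (isWeight_wt m).mean_finset_sum s (fun i hi => (h i hi).aesm) (fun i hi => (h i hi).bdd)

theorem lmean_add {m : ℕ} [NeZero m] {φ ψ : ℍ → ℂ} (h : IsAdm m φ) (h' : IsAdm m ψ) :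
    lmean m (fun τ => φ τ + ψ τ) = lmean m φ + lmean m ψ :=
  (isWeight_wt m).mean_add h.aesm h.bdd h'.aesm h'.bdd

/-- the Petersson form. -/
noncomputable def petForm (N : ℕ) [NeZero N] (k : ℤ) (f g : CuspForm (Gamma0 N) k) : ℂ :=
  lmean N (petersson k f g)

theorem isAdm_petersson (N : ℕ) [NeZero N] (k : ℤ) (f g : CuspForm (Gamma0 N) k) :
    IsAdm N (petersson k f g) :=
  ⟨(petersson_cuspForm_props N k f g).1, (petersson_cuspForm_props N k f g).2.1,
    (petersson_cuspForm_props N k f g).2.2⟩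

theorem petForm_add_left (N : ℕ) [NeZero N] (k : ℤ) (f g h : CuspForm (Gamma0 N) k) :
    petForm N k (f + g) h = petForm N k f h + petForm N k g h := by
  unfold petForm
  rw [← lmean_add (isAdm_petersson N k f h) (isAdm_petersson N k g h)]
  congr 1
  funext τ
  simp [petersson, add_mul]

theorem petForm_add_right (N : ℕ) [NeZero N] (k : ℤ) (f g h : CuspForm (Gamma0 N) k) :
    petForm N k f (g + h) = petForm N k f g + petForm N k f h := by
  unfold petForm
  rw [← lmean_add (isAdm_petersson N k f g) (isAdm_petersson N k f h)]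
  congr 1
  funext τ
  simp [petersson, mul_add, add_mul]

theorem petForm_definite (N : ℕ) [NeZero N] (k : ℤ) (f : CuspForm (Gamma0 N) k)
    (h0 : petForm N k f f = 0) : f = 0 := by
  have := countable_GammaGL N
  have := isOpenPosMeasure_upperHalfPlane
  have hw := isWeight_wt N
  have hpos : 0 < ∫ τ, wt N τ := hw.integral_pos (by
    intro h
    have := (isOpenPosMeasure_upperHalfPlane).open_pos Set.univ isOpen_univ
      ⟨UpperHalfPlane.I, trivial⟩
    exact this (by rw [h]; rfl))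
  -- the real integrand
  set ψ : ℍ → ℝ := fun τ => ‖f τ‖ ^ 2 * τ.im ^ k with hψ
  have hpet : ∀ τ, petersson k f f τ = ((ψ τ : ℝ) : ℂ) := by
    intro τ
    simp only [petersson, hψ]
    rw [Complex.conj_mul']
    push_cast
    ring
  have hadm := isAdm_petersson N k f f
  have h1 : ∫ τ, wt N τ • petersson k f f τ = 0 := by
    have : (∫ τ, wt N τ)⁻¹ • ∫ τ, wt N τ • petersson k f f τ = 0 := h0
    rcases smul_eq_zero.1 this with h | h
    · exact absurd (inv_eq_zero.1 h) hpos.ne'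
    · exact h
  have h2 : ∫ τ, wt N τ * ψ τ = 0 := by
    have : (fun τ => wt N τ • petersson k f f τ) = fun τ => ((wt N τ * ψ τ : ℝ) : ℂ) := by
      funext τ
      rw [hpet]
      simp [Complex.real_smul]
    rw [this] at h1
    have h3 : ∫ τ, ((wt N τ * ψ τ : ℝ) : ℂ) = ((∫ τ, wt N τ * ψ τ : ℝ) : ℂ) := integral_ofReal
    rw [h3] at h1
    exact_mod_cast h1
  have hψz := hw.eq_zero_of_integral_eq_zero (ψ := ψ) ?_ ?_ ?_ ?_ h2
  · ext τ
    have := hψz τ
    simp only [hψ] at this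
    have him : (τ.im ^ k) ≠ 0 := zpow_ne_zero _ τ.im_pos.ne'
    have : ‖f τ‖ ^ 2 = 0 := by
      rcases mul_eq_zero.1 this with h | h
      · exact h
      · exact absurd h him
    simpa using this
  · have : Continuous fun τ : ℍ => (petersson k f f τ).re := Complex.continuous_re.comp hadm.cont
    refine this.congr fun τ => ?_
    rw [hpet]; simp
  · intro τ
    exact mul_nonneg (by positivity) (zpow_nonneg τ.im_pos.le _)
  · obtain ⟨C, hC⟩ := hadm.bdd
    refine ⟨C, fun τ => ?_⟩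
    have := hC τ
    rw [hpet, Complex.norm_real] at this
    exact (le_abs_self _).trans this
  · intro δ hδ τ
    have := (forall_mem_GammaGL_iff N (petersson k f f)).2 hadm.inv δ hδ τ
    rw [hpet, hpet] at this
    exact_mod_cast this

theorem petForm_heckeT (N : ℕ) [NeZero N] (k : ℤ) {p : ℕ} (hp : p.Prime) (hpN : ¬ p ∣ N)
    (f g : CuspForm (Gamma0 N) k) :
    petForm N k (CuspForm.heckeTLin k hp hpN f) g = petForm N k f (CuspForm.heckeTLin k hp hpN g) := by
  have : NeZero p := ⟨hp.ne_zero⟩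
  obtain ⟨φ, σ, σ', hc, hb, hinv, hinv', hL, hR⟩ := exists_petersson_heckeT_decomp N k hp hpN f g
  have hφ : IsAdm (N * p) φ := ⟨hc, hb, hinv⟩
  have hφ' : IsAdm (N * p) (fun τ => φ (heckeDiagMatrix p • τ)) :=
    ⟨hc.comp (continuous_const_smul _), by obtain ⟨C, hC⟩ := hb; exact ⟨C, fun τ => hC _⟩, hinv'⟩
  have hdvd : N ∣ N * p := dvd_mul_right N p
  have eL : petForm N k (CuspForm.heckeTLin k hp hpN f) g = (p + 1 : ℕ) • lmean (N * p) φ := by
    unfold petForm
    rw [← lmean_of_dvd hdvd (isAdm_petersson N k _ g)]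
    have : petersson k (CuspForm.heckeTLin k hp hpN f) g = fun τ => ∑ i, φ (σ i • τ) :=
      funext hL
    rw [this, lmean_sum Finset.univ (fun i _ => hφ.comp_SL (σ i)),
      Finset.sum_congr rfl (fun i _ => lmean_comp_SL hφ (σ i))]
    simp
  have eR : petForm N k f (CuspForm.heckeTLin k hp hpN g) =
      (p + 1 : ℕ) • lmean (N * p) (fun τ => φ (heckeDiagMatrix p • τ)) := by
    unfold petForm
    rw [← lmean_of_dvd hdvd (isAdm_petersson N k f _)]
    have : petersson k f (CuspForm.heckeTLin k hp hpN g) =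
        fun τ => ∑ i, φ (heckeDiagMatrix p • σ' i • τ) := funext hR
    rw [this, lmean_sum Finset.univ (fun i _ => hφ'.comp_SL (σ' i)),
      Finset.sum_congr rfl (fun i _ => lmean_comp_SL hφ' (σ' i))]
    simp
  rw [eL, eR]
  congr 1
  rw [← lmean_of_dvd (dvd_mul_right (N * p) p) hφ', lmean_comp_diag hφ]

/-- **Main theorem of the analytic half.** -/
theorem hasSelfAdjointForm (N : ℕ) [NeZero N] (k : ℤ) : HasSelfAdjointForm N k :=
  ⟨petForm N k, petForm_add_left N k, petForm_add_right N k, petForm_definite N k,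
    fun _ hℓ hℓN f g => petForm_heckeT N k hℓ hℓN f g⟩

end Fermat.Agent.Pet
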