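import Mathlib
import Fermat.Prelude.Def_CuspForm_HeckeAlgebra
import Fermat.Agent.Lib.Petersson.Interface

/-!
# Petersson P5 (algebraic half): self-adjoint Hecke operators ⇒ the Hecke algebra is reduced

Abstract statement: if a biadditive definite form `B` on `S_k(Γ₀(N))` exists for which every
generator of the Hecke algebra is self-adjoint, then `heckeAlgebra N k S` is a reduced ring.
(Every element of the `ℤ`-algebra generated by commuting self-adjoint operators is self-adjoint,
and a nilpotent self-adjoint operator for a definite form vanishes.)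

Owner: helper31.  Consumer: `HeckeDVRSeparation` (helper62), S31–S34.
-/

namespace Fermat.Agent.Pet

open CuspForm

section Abstract

variable {V : Type*} [AddCommGroup V] [Module ℂ V]

/-- Every element of the `ℤ`-algebra generated by a family of pairwise commuting operators that
are self-adjoint for a biadditive form is self-adjoint. -/
theorem selfAdjoint_of_mem_adjoin (B : V → V → ℂ)
    (hadd_left : ∀ f g h, B (f + g) h = B f h + B g h)
    (hadd_right : ∀ f g h, B f (g + h) = B f g + B f h)
    (G : Set (Module.End ℂ V))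
    (hcomm : ∀ T ∈ G, ∀ T' ∈ G, Commute T T')
    (hsa : ∀ T ∈ G, ∀ f g, B (T f) g = B f (T g))
    {t : Module.End ℂ V} (ht : t ∈ Algebra.adjoin ℤ G) :
    ∀ f g, B (t f) g = B f (t g) := by
  have hzero_left : ∀ g, B 0 g = 0 := fun g => by
    have := hadd_left 0 0 g
    simp only [add_zero] at this
    exact left_eq_add.mp this
  have hzero_right : ∀ f, B f 0 = 0 := fun f => by
    have := hadd_right f 0 0
    simp only [add_zero] at this
    exact left_eq_add.mp this
  have hneg_left : ∀ f g, B (-f) g = -B f g := fun f g => by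
    have := hadd_left f (-f) g
    rw [add_neg_cancel, hzero_left] at this
    exact (neg_eq_of_add_eq_zero_right this.symm).symm
  have hneg_right : ∀ f g, B f (-g) = -B f g := fun f g => by
    have := hadd_right f g (-g)
    rw [add_neg_cancel, hzero_right] at this
    exact (neg_eq_of_add_eq_zero_right this.symm).symm
  have hnat : ∀ (n : ℕ) f g, B (n • f) g = B f (n • g) := by
    intro n f g
    induction n with
    | zero => simp [hzero_left, hzero_right]
    | succ n ih => rw [succ_nsmul, succ_nsmul, hadd_left, hadd_right, ih]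
  have hint : ∀ (n : ℤ) f g, B (n • f) g = B f (n • g) := by
    intro n f g
    cases n with
    | ofNat n => simpa using hnat n f g
    | negSucc n =>
      rw [negSucc_zsmul, negSucc_zsmul, hneg_left, hneg_right, hnat]
  -- the commutativity of the adjoin
  have hcommAdj : ∀ a ∈ Algebra.adjoin ℤ G, ∀ b ∈ Algebra.adjoin ℤ G, Commute a b := by
    intro a ha b hb
    have := Algebra.isMulCommutative_adjoin ℤ (s := G) fun a ha b hb => hcomm a ha b hb
    exact congrArg Subtype.val (this.is_comm.comm ⟨a, ha⟩ ⟨b, hb⟩)
  induction ht using Algebra.adjoin_induction with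
  | mem x hx => exact hsa x hx
  | algebraMap r =>
    intro f g
    have h1 : (algebraMap ℤ (Module.End ℂ V) r) f = r • f := by
      simp
    have h2 : (algebraMap ℤ (Module.End ℂ V) r) g = r • g := by
      simp
    rw [h1, h2, hint]
  | add x y _ _ hx hy =>
    intro f g
    simp only [LinearMap.add_apply, hadd_left, hadd_right, hx, hy]
  | mul x y hxm hym hx hy =>
    intro f g
    have hc : x * y = y * x := (hcommAdj x hxm y hym).eq
    calc B ((x * y) f) g = B (x (y f)) g := rfl
      _ = B (y f) (x g) := hx _ _
      _ = B f (y (x g)) := hy _ _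
      _ = B f ((y * x) g) := rfl
      _ = B f ((x * y) g) := by rw [hc]

/-- A nilpotent operator that is self-adjoint (together with all its powers) for a definite
biadditive form vanishes. -/
theorem eq_zero_of_selfAdjoint_pow (B : V → V → ℂ)
    (hdef : ∀ f, B f f = 0 → f = 0)
    (hzero_right : ∀ f, B f 0 = 0)
    {t : Module.End ℂ V} (hsa : ∀ f g, B (t f) g = B f (t g))
    (hnil : IsNilpotent t) : t = 0 := by
  obtain ⟨n, hn⟩ := hnil
  -- reduce to the case t ^ 2 = 0 by downward induction
  have key : ∀ s : Module.End ℂ V, (∀ f g, B (s f) g = B f (s g)) → s ^ 2 = 0 → s = 0 := by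
    intro s hs h2
    ext f
    apply hdef
    have : B (s f) (s f) = B f ((s ^ 2) f) := by
      rw [hs, pow_two]; rfl
    rw [this, h2, LinearMap.zero_apply, hzero_right]
  have hpow_sa : ∀ m : ℕ, ∀ f g, B ((t ^ m) f) g = B f ((t ^ m) g) := by
    intro m
    induction m with
    | zero => intro f g; simp
    | succ m ih =>
      intro f g
      calc B ((t ^ (m + 1)) f) g = B ((t ^ m) (t f)) g := by rw [pow_succ]; rfl
        _ = B (t f) ((t ^ m) g) := ih _ _
        _ = B f (t ((t ^ m) g)) := hsa _ _
        _ = B f ((t ^ (m + 1)) g) := by rw [pow_succ']; rfl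
  -- t ^ (2 ^ j) = 0 for some j, descend
  have h2pow : ∀ j : ℕ, t ^ (2 ^ j) = 0 → t = 0 := by
    intro j
    induction j with
    | zero => intro h; simpa using h
    | succ j ih =>
      intro h
      apply ih
      apply key _ (hpow_sa _)
      rw [← pow_mul, ← pow_succ]
      exact h
  apply h2pow n
  have hle : n ≤ 2 ^ n := Nat.lt_two_pow_self.le
  exact pow_eq_zero_of_le hle hn

end Abstract

variable {N : ℕ} [NeZero N] {k : ℤ} {S : Set ℕ}

/-- **P5, step 1.** If every generator of the Hecke algebra is self-adjoint for a biadditive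
definite form on `S_k(Γ₀(N))`, the Hecke algebra is reduced. -/
theorem isReduced_heckeAlgebra_of_form
    (B : CuspForm (CongruenceSubgroup.Gamma0 N) k → CuspForm (CongruenceSubgroup.Gamma0 N) k → ℂ)
    (hadd_left : ∀ f g h, B (f + g) h = B f h + B g h)
    (hadd_right : ∀ f g h, B f (g + h) = B f g + B f h)
    (hdef : ∀ f, B f f = 0 → f = 0)
    (hsa : ∀ T ∈ heckeGenerators N k S, ∀ f g, B (T f) g = B f (T g)) :
    IsReduced (heckeAlgebra N k S) := by
  have hzero_right : ∀ f, B f 0 = 0 := fun f => by
    have := hadd_right f 0 0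
    simp only [add_zero] at this
    exact left_eq_add.mp this
  refine ⟨fun x hx => ?_⟩
  apply Subtype.ext
  have hx' : IsNilpotent (x : Module.End ℂ (CuspForm (CongruenceSubgroup.Gamma0 N) k)) := by
    obtain ⟨n, hn⟩ := hx
    refine ⟨n, ?_⟩
    have := congrArg Subtype.val hn
    simpa using this
  exact eq_zero_of_selfAdjoint_pow B hdef hzero_right
    (selfAdjoint_of_mem_adjoin B hadd_left hadd_right _
      (fun T hT T' hT' => commute_of_mem_heckeGenerators hT hT') hsa x.2) hx'

/-- **P5, step 1, anemic form.** If `S` contains all primes dividing `N` and every `T_ℓ`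
(`ℓ ∤ N`) is self-adjoint for a biadditive definite form, the Hecke algebra away from `S` is
reduced. -/
theorem isReduced_heckeAlgebra_of_heckeT_selfAdjoint
    (hNS : ∀ q : ℕ, q.Prime → q ∣ N → q ∈ S)
    (B : CuspForm (CongruenceSubgroup.Gamma0 N) k → CuspForm (CongruenceSubgroup.Gamma0 N) k → ℂ)
    (hadd_left : ∀ f g h, B (f + g) h = B f h + B g h)
    (hadd_right : ∀ f g h, B f (g + h) = B f g + B f h)
    (hdef : ∀ f, B f f = 0 → f = 0)
    (hsa : ∀ (ℓ : ℕ) (hℓ : ℓ.Prime) (hℓN : ¬ ℓ ∣ N), ℓ ∉ S → ∀ f g,
      B (heckeTLin k hℓ hℓN f) g = B f (heckeTLin k hℓ hℓN g)) :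
    IsReduced (heckeAlgebra N k S) := by
  refine isReduced_heckeAlgebra_of_form B hadd_left hadd_right hdef ?_
  rintro T (⟨ℓ, hℓ, hℓN, hℓS, rfl⟩ | ⟨q, hqN, hq, hqS, rfl⟩)
  · exact hsa ℓ hℓ hℓN hℓS
  · exact absurd (hNS q hq hqN) hqS

/-- **P5, step 1, interface form.** `HasSelfAdjointForm N k` (the output of the analytic half)
makes the Hecke algebra away from any `S` containing the primes of the level reduced. -/
theorem isReduced_heckeAlgebra_of_hasSelfAdjointForm
    (hNS : ∀ q : ℕ, q.Prime → q ∣ N → q ∈ S) (h : HasSelfAdjointForm N k) :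
    IsReduced (heckeAlgebra N k S) := by
  obtain ⟨B, h1, h2, h3, h4⟩ := h
  exact isReduced_heckeAlgebra_of_heckeT_selfAdjoint hNS B h1 h2 h3
    fun ℓ hℓ hℓN _ f g => h4 ℓ hℓ hℓN f g

end Fermat.Agent.Pet
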