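import Mathlib
import Fermat.Agent.Lib.Petersson.Adjoint
import Fermat.Agent.Lib.Petersson.Reduced

/-!
# Lib/Petersson/Main: the Hecke algebra away from the level is reduced

`Fermat.Agent.Pet.isReduced_heckeAlgebra`: if `S` contains all primes dividing `N`, then the
ring `CuspForm.heckeAlgebra N k S` (generated by the `T_ℓ`, `ℓ ∤ N`, `ℓ ∉ S`) is reduced.
Sorry-free; analytic input `hasSelfAdjointForm` (Petersson scalar product, self-adjointness of
`T_ℓ`), algebraic part `isReduced_heckeAlgebra_of_hasSelfAdjointForm` (helper31).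
-/

namespace Fermat.Agent.Pet

/-- The Hecke algebra away from the level is reduced. -/
theorem isReduced_heckeAlgebra (N : ℕ) [NeZero N] (k : ℤ) (S : Set ℕ)
    (hS : ∀ q : ℕ, q.Prime → q ∣ N → q ∈ S) : IsReduced (CuspForm.heckeAlgebra N k S) :=
  isReduced_heckeAlgebra_of_hasSelfAdjointForm hS (hasSelfAdjointForm N k)

end Fermat.Agent.Pet
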